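/-
S25, squad S25/S10 (helper250): ADAPTER from the row's algebraic model (`DefsAlg.lean`,
`CurveGD`) to the operator-style Cech core (`H10/CechDefs.lean`, `CechOps`).

* `tensorX`, `tensorY`, ... : the elements `1 ⊗ x`, `1 ⊗ y` of `A ⊗ B₀`, `A ⊗ B₁`, `A ⊗ B₀₁`;
* `toCechOps` : the `CechOps` datum of a `CurveGD` (needs only the two localization facts and
  `x y = 1` of an `IsCurveChart`);
* `toCechOps_d_zero` : its untwisted differential is `GlueDatum.cech`.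
-/
import Fermat.Agent.S25.DefsAlg
import Fermat.Agent.S25.H10.CechDefs

set_option autoImplicit false

universe u

open scoped TensorProduct
open Polynomial

namespace Fermat.Agent.S25.H250

open Fermat.Agent.S25 Fermat.Agent.S25.H10

noncomputable section

variable {k : Type u} [Field k] {B₀ B₁ B₀₁ : Type u} [CommRing B₀] [CommRing B₁] [CommRing B₀₁]
  [Algebra k B₀] [Algebra k B₁] [Algebra k B₀₁] [Algebra B₀ B₀₁] [Algebra B₁ B₀₁]
  [IsScalarTower k B₀ B₀₁] [IsScalarTower k B₁ B₀₁]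

/-! ### The ring level -/

section Ring

variable (A : Type u) [CommRing A] [Algebra k A]

theorem algebraMap_tensor_tmul (B B' : Type u) [CommRing B] [CommRing B'] [Algebra k B]
    [Algebra k B'] [Algebra B B'] [IsScalarTower k B B'] (a : A) (b : B) :
    algebraMap (A ⊗[k] B) (A ⊗[k] B') (a ⊗ₜ[k] b) = a ⊗ₜ[k] algebraMap B B' b := by
  rw [RingHom.algebraMap_toAlgebra]
  simp [tensorMapRight]

/-- Every element of `A ⊗ B'` becomes, after multiplication by a high power of `1 ⊗ x`, the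
image of an element of `A ⊗ B`, when `B' = B[1/x]`. -/
theorem exists_pow_mul_eq_algebraMap (B B' : Type u) [CommRing B] [CommRing B'] [Algebra k B]
    [Algebra k B'] [Algebra B B'] [IsScalarTower k B B'] (x : B) [IsLocalization.Away x B']
    (c : A ⊗[k] B') :
    ∃ n : ℕ, ∀ j, n ≤ j → ∃ c₀ : A ⊗[k] B,
      ((1 : A) ⊗ₜ[k] algebraMap B B' x) ^ j * c = algebraMap (A ⊗[k] B) (A ⊗[k] B') c₀ := by
  induction c using TensorProduct.induction_on with
  | zero => exact ⟨0, fun j _ => ⟨0, by simp⟩⟩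
  | tmul a b =>
    obtain ⟨n, b₀, hb⟩ := IsLocalization.Away.surj x b
    refine ⟨n, fun j hj => ⟨a ⊗ₜ[k] (x ^ (j - n) * b₀), ?_⟩⟩
    rw [algebraMap_tensor_tmul, Algebra.TensorProduct.tmul_pow, one_pow,
      Algebra.TensorProduct.tmul_mul_tmul, one_mul, map_mul, map_pow, ← hb]
    congr 1
    rw [mul_comm b, ← mul_assoc, ← pow_add, Nat.sub_add_cancel hj]
  | add c c' hc hc' =>
    obtain ⟨n, hn⟩ := hc
    obtain ⟨n', hn'⟩ := hc'
    refine ⟨max n n', fun j hj => ?_⟩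
    obtain ⟨c₀, h₀⟩ := hn j (le_trans (le_max_left _ _) hj)
    obtain ⟨c₀', h₀'⟩ := hn' j (le_trans (le_max_right _ _) hj)
    exact ⟨c₀ + c₀', by rw [mul_add, map_add, h₀, h₀']⟩

end Ring

/-! ### The adapter -/

variable {A : Type u} [CommRing A] [Algebra k A]

/-- Localization property of a base-change map along `A ⊗ B → A ⊗ B[1/x]`, in operator form. -/
theorem exists_pow_smul_eq (B B' : Type u) [CommRing B] [CommRing B'] [Algebra k B]
    [Algebra k B'] [Algebra B B'] [IsScalarTower k B B'] (x : B) [IsLocalization.Away x B']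
    {N N' : Type u} [AddCommGroup N] [AddCommGroup N'] [Module (A ⊗[k] B) N]
    [Module (A ⊗[k] B') N'] [Module (A ⊗[k] B) N'] [IsScalarTower (A ⊗[k] B) (A ⊗[k] B') N']
    (r : N →ₗ[A ⊗[k] B] N') (hr : IsBaseChange (A ⊗[k] B') r) (z : N') :
    ∃ n : ℕ, ∀ j, n ≤ j → ∃ m : N, ((1 : A) ⊗ₜ[k] algebraMap B B' x) ^ j • z = r m := by
  have hx : ∀ (j : ℕ) (m : N), ((1 : A) ⊗ₜ[k] algebraMap B B' x) ^ j • r m =
      r (((1 : A) ⊗ₜ[k] x) ^ j • m) := by
    intro j m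
    rw [map_smul, ← algebraMap_smul (A ⊗[k] B') (((1 : A) ⊗ₜ[k] x) ^ j) (r m), map_pow,
      algebraMap_tensor_tmul]
  induction z using hr.inductionOn with
  | zero => exact ⟨0, fun j _ => ⟨0, by simp⟩⟩
  | tmul m => exact ⟨0, fun j _ => ⟨_, hx j m⟩⟩
  | smul s z hz =>
    obtain ⟨n, hn⟩ := hz
    obtain ⟨n', hn'⟩ := exists_pow_mul_eq_algebraMap A B B' x s
    refine ⟨n' + n, fun j hj => ?_⟩
    obtain ⟨m, hm⟩ := hn (j - n') (by omega)
    obtain ⟨c₀, hc₀⟩ := hn' n' le_rfl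
    refine ⟨c₀ • m, ?_⟩
    have hj' : j = n' + (j - n') := by omega
    rw [map_smul, ← hm, ← algebraMap_smul (A ⊗[k] B') c₀, ← hc₀, smul_smul, smul_smul]
    congr 1
    conv_lhs => rw [hj', pow_add]
    ring
  | add z z' hz hz' =>
    obtain ⟨n, hn⟩ := hz
    obtain ⟨n', hn'⟩ := hz'
    refine ⟨max n n', fun j hj => ?_⟩
    obtain ⟨m, hm⟩ := hn j (le_trans (le_max_left _ _) hj)
    obtain ⟨m', hm'⟩ := hn' j (le_trans (le_max_right _ _) hj)
    exact ⟨m + m', by rw [smul_add, map_add, hm, hm']⟩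

/-- The operator-style Cech datum of a gluing datum on `C_A`: the operators are multiplication
by `1 ⊗ x` on `N₀`, `N₀₁` and by `1 ⊗ y` on `N₁`, `N₀₁`. -/
def toCechOps (x : B₀) (y : B₁) [IsLocalization.Away x B₀₁] [IsLocalization.Away y B₀₁]
    (hxy : algebraMap B₀ B₀₁ x * algebraMap B₁ B₀₁ y = 1) (G : CurveGD k B₀ B₁ B₀₁ A) :
    CechOps A G.N₀ G.N₁ G.N₀₁ where
  X0 := Algebra.lsmul A A G.N₀ ((1 : A) ⊗ₜ[k] x)
  Y1 := Algebra.lsmul A A G.N₁ ((1 : A) ⊗ₜ[k] y)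
  T := Algebra.lsmul A A G.N₀₁ ((1 : A) ⊗ₜ[k] algebraMap B₀ B₀₁ x)
  Tinv := Algebra.lsmul A A G.N₀₁ ((1 : A) ⊗ₜ[k] algebraMap B₁ B₀₁ y)
  r0 := G.r₀.restrictScalars A
  r1 := G.r₁.restrictScalars A
  T_mul_Tinv := by
    rw [← map_mul, Algebra.TensorProduct.tmul_mul_tmul, one_mul, hxy,
      ← Algebra.TensorProduct.one_def, map_one]
  Tinv_mul_T := by
    rw [← map_mul, Algebra.TensorProduct.tmul_mul_tmul, one_mul, mul_comm, hxy,
      ← Algebra.TensorProduct.one_def, map_one]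
  r0_X0 := by
    intro n
    simp only [LinearMap.coe_restrictScalars, Algebra.lsmul_coe, map_smul]
    rw [← algebraMap_smul (A ⊗[k] B₀₁) ((1 : A) ⊗ₜ[k] x) (G.r₀ n), algebraMap_tensor_tmul]
  r1_Y1 := by
    intro n
    simp only [LinearMap.coe_restrictScalars, Algebra.lsmul_coe, map_smul]
    rw [← algebraMap_smul (A ⊗[k] B₀₁) ((1 : A) ⊗ₜ[k] y) (G.r₁ n), algebraMap_tensor_tmul]
  loc0 := by
    intro z
    obtain ⟨n, hn⟩ := exists_pow_smul_eq (A := A) B₀ B₀₁ x G.r₀ G.isBaseChange₀ z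
    obtain ⟨m, hm⟩ := hn n le_rfl
    exact ⟨n, m, by rw [← map_pow]; exact hm⟩
  loc1 := by
    intro z
    obtain ⟨n, hn⟩ := exists_pow_smul_eq (A := A) B₁ B₀₁ y G.r₁ G.isBaseChange₁ z
    obtain ⟨m, hm⟩ := hn n le_rfl
    exact ⟨n, m, by rw [← map_pow]; exact hm⟩

section Lemmas

variable (x : B₀) (y : B₁) [IsLocalization.Away x B₀₁] [IsLocalization.Away y B₀₁]
  (hxy : algebraMap B₀ B₀₁ x * algebraMap B₁ B₀₁ y = 1) (G : CurveGD k B₀ B₁ B₀₁ A)

@[simp] theorem toCechOps_X0_apply (n : G.N₀) :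
    (toCechOps x y hxy G).X0 n = ((1 : A) ⊗ₜ[k] x : A ⊗[k] B₀) • n := rfl

@[simp] theorem toCechOps_Y1_apply (n : G.N₁) :
    (toCechOps x y hxy G).Y1 n = ((1 : A) ⊗ₜ[k] y : A ⊗[k] B₁) • n := rfl

@[simp] theorem toCechOps_T_apply (z : G.N₀₁) :
    (toCechOps x y hxy G).T z = ((1 : A) ⊗ₜ[k] algebraMap B₀ B₀₁ x : A ⊗[k] B₀₁) • z := rfl

@[simp] theorem toCechOps_Tinv_apply (z : G.N₀₁) :
    (toCechOps x y hxy G).Tinv z = ((1 : A) ⊗ₜ[k] algebraMap B₁ B₀₁ y : A ⊗[k] B₀₁) • z := rfl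

@[simp] theorem toCechOps_r0_apply (n : G.N₀) : (toCechOps x y hxy G).r0 n = G.r₀ n := rfl

@[simp] theorem toCechOps_r1_apply (n : G.N₁) : (toCechOps x y hxy G).r1 n = G.r₁ n := rfl

theorem toCechOps_X0_pow_apply (j : ℕ) (n : G.N₀) :
    ((toCechOps x y hxy G).X0 ^ j) n = ((1 : A) ⊗ₜ[k] x : A ⊗[k] B₀) ^ j • n := by
  show ((Algebra.lsmul A A G.N₀ ((1 : A) ⊗ₜ[k] x)) ^ j) n = _
  rw [← map_pow]; rfl

theorem toCechOps_Y1_pow_apply (j : ℕ) (n : G.N₁) :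
    ((toCechOps x y hxy G).Y1 ^ j) n = ((1 : A) ⊗ₜ[k] y : A ⊗[k] B₁) ^ j • n := by
  show ((Algebra.lsmul A A G.N₁ ((1 : A) ⊗ₜ[k] y)) ^ j) n = _
  rw [← map_pow]; rfl

theorem toCechOps_T_pow_apply (j : ℕ) (z : G.N₀₁) :
    ((toCechOps x y hxy G).T ^ j) z =
      ((1 : A) ⊗ₜ[k] algebraMap B₀ B₀₁ x : A ⊗[k] B₀₁) ^ j • z := by
  show ((Algebra.lsmul A A G.N₀₁ ((1 : A) ⊗ₜ[k] algebraMap B₀ B₀₁ x)) ^ j) z = _
  rw [← map_pow]; rfl

theorem toCechOps_Tinv_pow_apply (j : ℕ) (z : G.N₀₁) :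
    ((toCechOps x y hxy G).Tinv ^ j) z =
      ((1 : A) ⊗ₜ[k] algebraMap B₁ B₀₁ y : A ⊗[k] B₀₁) ^ j • z := by
  show ((Algebra.lsmul A A G.N₀₁ ((1 : A) ⊗ₜ[k] algebraMap B₁ B₀₁ y)) ^ j) z = _
  rw [← map_pow]; rfl

/-- The untwisted differential of the adapter is the Cech differential of the gluing datum. -/
theorem toCechOps_d_zero : (toCechOps x y hxy G).d 0 = G.cech := by
  apply LinearMap.ext
  rintro ⟨a, b⟩
  simp [CechOps.d_apply, GlueDatum.cech, sub_eq_add_neg]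

theorem toCechOps_H0_zero : (toCechOps x y hxy G).H0 0 = G.H0 := by
  show LinearMap.ker ((toCechOps x y hxy G).d 0) = LinearMap.ker G.cech
  rw [toCechOps_d_zero]

end Lemmas

end

end Fermat.Agent.S25.H250
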