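/-
S25, squad S25/S10 (helper250): algebra of a curve chart (`IsCurveChart`, `DefsAlg.lean`).

* `y_ne_zero`, `x_ne_zero`, injectivity of `B₀ → B₀₁ ← B₁`;
* `transcendental_y`, `transcendental_x`;
* `B₀` is free of finite rank over `k[x]`, in operator form
  (`exists_equivariant_equiv₀`), and the same after `A ⊗[k] -`.
-/
import Fermat.Agent.S25.DefsAlg

set_option autoImplicit false
set_option linter.style.haveILetI false
set_option linter.unusedSectionVars false

universe u

open scoped TensorProduct
open Polynomial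

namespace Fermat.Agent.S25.H250

open Fermat.Agent.S25

section General

variable {k : Type u} [Field k]

/-- A finite algebra over `k[X]` through `X ↦ 0` is finite over `k`. -/
theorem finite_of_aeval_zero_finite {B : Type u} [CommRing B] [Algebra k B]
    (h : (Polynomial.aeval (0 : B) : k[X] →ₐ[k] B).Finite) : Module.Finite k B := by
  have h1 : (Polynomial.aeval (0 : B) : k[X] →ₐ[k] B).toRingHom =
      (algebraMap k B).comp (Polynomial.evalRingHom (0 : k)) := by
    apply Polynomial.ringHom_ext
    · intro a; simp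
    · simp
  have h2 : ((algebraMap k B).comp (Polynomial.evalRingHom (0 : k))).Finite := by
    rw [← h1]; exact h
  have h3 : (algebraMap k B).Finite := RingHom.Finite.of_comp_finite h2
  exact RingHom.finite_algebraMap.1 h3

/-- If a `k`-algebra domain `B`, finite over `k`, has a `k`-point, its Kaehler differentials
vanish. -/
theorem subsingleton_kaehler_of_finite_of_point {B : Type u} [CommRing B] [IsDomain B]
    [Algebra k B] [Module.Finite k B] (e : B →ₐ[k] k) : Subsingleton (Ω[B⁄k]) := by
  have hfield : IsField B :=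
    isField_of_isIntegral_of_isField' (R := k) (S := B) (Field.toIsField k)
  letI := hfield.toField
  have hinj : Function.Injective e := (e : B →+* k).injective
  have hb : ∀ b : B, b = algebraMap k B (e b) := by
    intro b
    apply hinj
    rw [AlgHom.commutes]
    rfl
  have hD : ∀ b : B, KaehlerDifferential.D k B b = 0 := by
    intro b
    rw [hb b]
    exact (KaehlerDifferential.D k B).map_algebraMap _
  have htop : (⊤ : Submodule B (Ω[B⁄k])) = ⊥ := by
    rw [← KaehlerDifferential.span_range_derivation k B, Submodule.span_eq_bot]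
    rintro _ ⟨b, rfl⟩
    exact hD b
  exact (Submodule.subsingleton_iff B).1 (subsingleton_of_bot_eq_top htop.symm)

end General

section Chart

variable {k : Type u} [Field k] {B₀ B₁ B₀₁ : Type u} [CommRing B₀] [CommRing B₁] [CommRing B₀₁]
  [Algebra k B₀] [Algebra k B₁] [Algebra k B₀₁] [Algebra B₀ B₀₁] [Algebra B₁ B₀₁]
  [IsScalarTower k B₀ B₀₁] [IsScalarTower k B₁ B₀₁]
  {x : B₀} {y : B₁} {e : B₁ →ₐ[k] k}

theorem y_ne_zero (h : IsCurveChart k B₀ B₁ B₀₁ x y e) : y ≠ 0 := by
  intro hy
  haveI := h.isDomain₁
  haveI : Module.Finite k B₁ := finite_of_aeval_zero_finite (by rw [← hy]; exact h.finite₁)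
  haveI := subsingleton_kaehler_of_finite_of_point e
  haveI := h.omega₁
  have : (1 : B₁) = 0 := by
    apply FaithfulSMul.eq_of_smul_eq_smul (α := Ω[B₁⁄k])
    intro m
    exact Subsingleton.elim _ _
  exact one_ne_zero this

theorem algebraMap_B1_injective (h : IsCurveChart k B₀ B₁ B₀₁ x y e) :
    Function.Injective (algebraMap B₁ B₀₁) := by
  haveI := h.isDomain₁
  haveI := h.away₁
  exact IsLocalization.injective B₀₁ (M := Submonoid.powers y)
    (Submonoid.powers_le.2 (mem_nonZeroDivisors_of_ne_zero (y_ne_zero h)))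

theorem nontrivial_B01 (h : IsCurveChart k B₀ B₁ B₀₁ x y e) : Nontrivial B₀₁ := by
  haveI := h.isDomain₁
  exact (algebraMap_B1_injective h).nontrivial

theorem x_ne_zero (h : IsCurveChart k B₀ B₁ B₀₁ x y e) : x ≠ 0 := by
  intro hx
  haveI := nontrivial_B01 h
  have := h.mul_eq_one
  rw [hx, map_zero, zero_mul] at this
  exact zero_ne_one this

theorem algebraMap_B0_injective (h : IsCurveChart k B₀ B₁ B₀₁ x y e) :
    Function.Injective (algebraMap B₀ B₀₁) := by
  haveI := h.isDomain₀
  haveI := h.away₀
  exact IsLocalization.injective B₀₁ (M := Submonoid.powers x)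
    (Submonoid.powers_le.2 (mem_nonZeroDivisors_of_ne_zero (x_ne_zero h)))

theorem transcendental_y (h : IsCurveChart k B₀ B₁ B₀₁ x y e) : Transcendental k y := by
  intro halg
  haveI := h.isDomain₁
  have hu : IsUnit y := halg.isIntegral.isUnit (y_ne_zero h)
  have hu' : IsUnit (e y) := hu.map e
  rw [h.e_y] at hu'
  exact not_isUnit_zero hu'

/-- If `x` is algebraic over `k` and `B` is finite over `k[X]` through `X ↦ x`, then `B` is
finite over `k`. -/
theorem finite_of_isAlgebraic_of_aeval_finite {B : Type u} [CommRing B] [Algebra k B] {x : B}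
    (halg : IsAlgebraic k x) (h : (Polynomial.aeval x : k[X] →ₐ[k] B).Finite) :
    Module.Finite k B := by
  let S : Subalgebra k B := Algebra.adjoin k {x}
  haveI : Module.Finite k S := Module.Finite.of_fg halg.isIntegral.fg_adjoin_singleton
  haveI : Module.Finite S B := by
    let g : k[X] →ₐ[k] S :=
      (Polynomial.aeval x : k[X] →ₐ[k] B).codRestrict S
        (fun p => Polynomial.aeval_mem_adjoin_singleton _ _)
    have h1 : (S.val.comp g).Finite := by
      have : S.val.comp g = (Polynomial.aeval x : k[X] →ₐ[k] B) := by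
        ext
        simp [g]
      rw [this]; exact h
    have h2 : S.val.Finite := AlgHom.Finite.of_comp_finite h1
    exact RingHom.finite_algebraMap.1 h2
  exact Module.Finite.trans S B

theorem transcendental_x (h : IsCurveChart k B₀ B₁ B₀₁ x y e) : Transcendental k x := by
  intro halg
  haveI := h.isDomain₀
  haveI := h.isDomain₁
  haveI := h.away₀
  haveI : Module.Finite k B₀ := finite_of_isAlgebraic_of_aeval_finite halg h.finite₀
  -- `x` is a unit of `B₀`, so `B₀ → B₀₁` is bijective
  have hu : IsUnit x := halg.isIntegral.isUnit (x_ne_zero h)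
  have hsurj : Function.Surjective (algebraMap B₀ B₀₁) := by
    intro z
    obtain ⟨n, a, ha⟩ := IsLocalization.Away.surj x z
    obtain ⟨u, hu'⟩ := hu.pow n
    refine ⟨a * ((u⁻¹ : B₀ˣ) : B₀), ?_⟩
    rw [map_mul, ← ha, ← map_pow, ← hu', mul_assoc, ← map_mul, Units.mul_inv, map_one, mul_one]
  -- hence the image of `y` in `B₀₁` is integral over `k`
  obtain ⟨b, hb⟩ := hsurj (algebraMap B₁ B₀₁ y)
  have hint : IsIntegral k (algebraMap B₁ B₀₁ y) := by
    rw [← hb]
    exact (IsIntegral.of_finite k b).algebraMap
  have hy : IsIntegral k y :=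
    (isIntegral_algebraMap_iff (algebraMap_B1_injective h)).1 hint
  exact transcendental_y h hy.isAlgebraic

theorem aeval_x_injective (h : IsCurveChart k B₀ B₁ B₀₁ x y e) :
    Function.Injective (Polynomial.aeval x : k[X] →ₐ[k] B₀) :=
  transcendental_iff_injective.1 (transcendental_x h)

theorem aeval_y_injective (h : IsCurveChart k B₀ B₁ B₀₁ x y e) :
    Function.Injective (Polynomial.aeval y : k[X] →ₐ[k] B₁) :=
  transcendental_iff_injective.1 (transcendental_y h)

end Chart

section Free

variable {k : Type u} [Field k]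

/-- A domain which is finite over `k[X]` through a transcendental element `x` is free of
finite rank over `k[X]`; operator form. -/
theorem exists_equivariant_equiv {B : Type u} [CommRing B] [IsDomain B] [Algebra k B] {x : B}
    (hx : Function.Injective (Polynomial.aeval x : k[X] →ₐ[k] B))
    (hfin : (Polynomial.aeval x : k[X] →ₐ[k] B).Finite) :
    ∃ (n : ℕ) (φ : B ≃ₗ[k] (Fin n → k[X])), ∀ b, φ (x * b) = (X : k[X]) • φ b := by
  letI : Algebra k[X] B := (Polynomial.aeval x : k[X] →ₐ[k] B).toRingHom.toAlgebra
  haveI : IsScalarTower k k[X] B := IsScalarTower.of_algebraMap_eq' (by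
    rw [RingHom.algebraMap_toAlgebra]
    exact (Polynomial.aeval x : k[X] →ₐ[k] B).comp_algebraMap.symm)
  haveI : Module.Finite k[X] B := hfin
  have hsmul : ∀ (p : k[X]) (b : B), p • b = Polynomial.aeval x p * b := fun p b => by
    rw [Algebra.smul_def, RingHom.algebraMap_toAlgebra]; rfl
  haveI : Module.IsTorsionFree k[X] B := by
    refine Module.IsTorsionFree.of_smul_eq_zero fun p b hpb => ?_
    rw [hsmul, mul_eq_zero] at hpb
    rcases hpb with hp | hb
    · left
      exact hx (by rw [hp, map_zero])
    · right; exact hb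
  obtain ⟨n, bas⟩ : Σ n : ℕ, Module.Basis (Fin n) k[X] B := Module.basisOfFiniteTypeTorsionFree'
  refine ⟨n, bas.equivFun.restrictScalars k, fun b => ?_⟩
  have : x * b = (X : k[X]) • b := by rw [hsmul, Polynomial.aeval_X]
  rw [this]
  exact bas.equivFun.map_smul X b

/-- Base change of an equivariant trivialization: `A ⊗ B ≃ A[X]^n`, intertwining `1 ⊗ x` and
`X`. -/
theorem exists_equivariant_equiv_tensor {B : Type u} [CommRing B] [Algebra k B] {x : B}
    {n : ℕ} (φ : B ≃ₗ[k] (Fin n → k[X])) (hφ : ∀ b, φ (x * b) = (X : k[X]) • φ b)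
    (A : Type u) [CommRing A] [Algebra k A] :
    ∃ Φ : (A ⊗[k] B) ≃ₗ[A] (Fin n → A[X]),
      ∀ z, Φ (((1 : A) ⊗ₜ[k] x) * z) = (X : A[X]) • Φ z := by
  let Φ : (A ⊗[k] B) ≃ₗ[A] (Fin n → A[X]) :=
    (TensorProduct.AlgebraTensorModule.congr (LinearEquiv.refl A A) φ) ≪≫ₗ
      (TensorProduct.piRight k A A (fun _ : Fin n => k[X])) ≪≫ₗ
      (LinearEquiv.piCongrRight (fun _ : Fin n => (polyEquivTensor' k A).symm.toLinearEquiv))
  refine ⟨Φ, fun z => ?_⟩
  induction z using TensorProduct.induction_on with
  | zero => simp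
  | tmul a b =>
    rw [Algebra.TensorProduct.tmul_mul_tmul, one_mul]
    ext i : 1
    simp only [Φ, LinearEquiv.trans_apply, TensorProduct.AlgebraTensorModule.congr_tmul,
      LinearEquiv.refl_apply, TensorProduct.piRight_apply, TensorProduct.piRightHom_tmul,
      LinearEquiv.piCongrRight_apply, AlgEquiv.toLinearEquiv_apply, Pi.smul_apply, hφ,
      smul_eq_mul, coe_polyEquivTensor'_symm, polyEquivTensor_symm_apply_tmul_eq_smul,
      Polynomial.map_mul, Polynomial.map_X]
    rw [mul_smul_comm]
  | add z z' hz hz' =>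
    rw [mul_add, map_add, map_add, hz, hz', smul_add]

end Free


end Fermat.Agent.S25.H250
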