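/-
S25, squad S25/S10 (helper250): ADAPTER, part 2.  For a curve chart and any gluing datum `G` on
`C_A`, the operators of `toCechOps` satisfy the hypotheses of the Cech core K0-K6:
`IsFGProj X0`, `IsFGProj Y1`, `r0`, `r1` injective.
-/
import Fermat.Agent.S25.H250.Adapter
import Fermat.Agent.S25.H250.ChartAlg

set_option autoImplicit false
set_option linter.style.haveILetI false
set_option linter.unusedSectionVars false

universe u

open scoped TensorProduct
open Polynomial

namespace Fermat.Agent.S25.H250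

open Fermat.Agent.S25 Fermat.Agent.S25.H10

section General

variable {A : Type u} [CommRing A]

/-- An equivariant retract of an `IsFGProj` operator is `IsFGProj`. -/
theorem isFGProj_of_retract {N W : Type u} [AddCommGroup N] [Module A N] [AddCommGroup W]
    [Module A W] {E : Module.End A N} {F : Module.End A W} (hF : IsFGProj F)
    (ι : N →ₗ[A] W) (π : W →ₗ[A] N) (hπι : π ∘ₗ ι = LinearMap.id)
    (hι : ∀ v, ι (E v) = F (ι v)) (hπ : ∀ w, π (F w) = E (π w)) : IsFGProj E := by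
  obtain ⟨n, ι', π', h1, h2, h3⟩ := hF
  refine ⟨n, ι' ∘ₗ ι, π ∘ₗ π', ?_, ?_, ?_⟩
  · apply LinearMap.ext
    intro v
    have h1' := LinearMap.congr_fun h1 (ι v)
    have h2' := LinearMap.congr_fun hπι v
    simp only [LinearMap.coe_comp, Function.comp_apply, LinearMap.id_coe, id_eq] at h1' h2' ⊢
    rw [h1', h2']
  · intro v
    simp only [LinearMap.coe_comp, Function.comp_apply]
    rw [hι, h2]
  · intro w
    simp only [LinearMap.coe_comp, Function.comp_apply]
    rw [h3, hπ]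

/-- Multiplication by `t` on `R^m` is `IsFGProj` when `R ≃ A[X]^n` intertwines `t` and `X`. -/
theorem isFGProj_lsmul_pi {R : Type u} [CommRing R] [Algebra A R] (t : R) {n : ℕ}
    (Φ : R ≃ₗ[A] (Fin n → A[X])) (hΦ : ∀ z, Φ (t * z) = (X : A[X]) • Φ z) (m : ℕ) :
    IsFGProj (Algebra.lsmul A A (Fin m → R) t) := by
  let Ψ : (Fin m → R) ≃ₗ[A] (Fin (m * n) → A[X]) :=
    (LinearEquiv.piCongrRight (fun _ : Fin m => Φ)) ≪≫ₗ
      (LinearEquiv.curry A A[X] (Fin m) (Fin n)).symm ≪≫ₗ
      (LinearEquiv.funCongrLeft A A[X] finProdFinEquiv.symm)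
  have hΨ : ∀ w, Ψ (t • w) = (X : A[X]) • Ψ w := by
    intro w
    ext1 idx
    show Φ ((t • w) (finProdFinEquiv.symm idx).1) (finProdFinEquiv.symm idx).2 =
      (X : A[X]) * Φ (w (finProdFinEquiv.symm idx).1) (finProdFinEquiv.symm idx).2
    rw [Pi.smul_apply, smul_eq_mul, hΦ]
    rfl
  refine ⟨m * n, Ψ.toLinearMap, Ψ.symm.toLinearMap, ?_, ?_, ?_⟩
  · apply LinearMap.ext; intro v; simp
  · intro v
    exact hΨ v
  · intro w
    simp only [LinearEquiv.coe_coe, Algebra.lsmul_coe]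
    rw [LinearEquiv.symm_apply_eq, hΨ, LinearEquiv.apply_symm_apply]

/-- Multiplication by `t` on a finitely generated projective `R`-module is `IsFGProj` when
`R ≃ A[X]^n` intertwines `t` and `X`. -/
theorem isFGProj_lsmul {R : Type u} [CommRing R] [Algebra A R] (t : R) {n : ℕ}
    (Φ : R ≃ₗ[A] (Fin n → A[X])) (hΦ : ∀ z, Φ (t * z) = (X : A[X]) • Φ z)
    (N : Type u) [AddCommGroup N] [Module R N] [Module A N] [IsScalarTower A R N]
    [Module.Finite R N] [Module.Projective R N] :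
    IsFGProj (Algebra.lsmul A A N t) := by
  obtain ⟨m, f, g, -, -, hfg⟩ := Module.Finite.exists_comp_eq_id_of_projective R N
  refine isFGProj_of_retract (isFGProj_lsmul_pi t Φ hΦ m) (g.restrictScalars A)
    (f.restrictScalars A) ?_ ?_ ?_
  · apply LinearMap.ext
    intro v
    exact LinearMap.congr_fun hfg v
  · intro v
    simp
  · intro w
    simp

/-- An `IsFGProj` operator is injective. -/
theorem injective_of_isFGProj' {N : Type u} [AddCommGroup N] [Module A N] {E : Module.End A N}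
    (h : IsFGProj E) : Function.Injective E := by
  obtain ⟨n, ι, π, h1, h2, -⟩ := h
  rw [injective_iff_map_eq_zero]
  intro v hv
  have h3 : (X : A[X]) • ι v = 0 := by rw [← h2, hv, map_zero]
  have h4 : ι v = 0 := by
    funext i
    have := congrFun h3 i
    simp only [Pi.smul_apply, smul_eq_mul, Pi.zero_apply] at this ⊢
    exact (Polynomial.isRegular_X (R := A)).left.mul_left_eq_zero_iff.1 this
  have := LinearMap.congr_fun h1 v
  simp only [LinearMap.coe_comp, Function.comp_apply, LinearMap.id_coe, id_eq] at this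
  rw [← this, h4, map_zero]

theorem injective_pow_of_isFGProj {N : Type u} [AddCommGroup N] [Module A N]
    {E : Module.End A N} (h : IsFGProj E) (j : ℕ) : Function.Injective (E ^ j) := by
  induction j with
  | zero => exact fun _ _ h => h
  | succ j ih =>
    rw [pow_succ]
    exact ih.comp (injective_of_isFGProj' h)

end General


end Fermat.Agent.S25.H250


namespace Fermat.Agent.S25.H250

open Fermat.Agent.S25 Fermat.Agent.S25.H10

section Chart

variable {k : Type u} [Field k] {B₀ B₁ B₀₁ : Type u} [CommRing B₀] [CommRing B₁] [CommRing B₀₁]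
  [Algebra k B₀] [Algebra k B₁] [Algebra k B₀₁] [Algebra B₀ B₀₁] [Algebra B₁ B₀₁]
  [IsScalarTower k B₀ B₀₁] [IsScalarTower k B₁ B₀₁]
  {x : B₀} {y : B₁} {e : B₁ →ₐ[k] k} {A : Type u} [CommRing A] [Algebra k A]

/-- The operator-style Cech datum of a gluing datum on `C_A`, for a curve chart. -/
noncomputable def chartCechOps (h : IsCurveChart k B₀ B₁ B₀₁ x y e) (G : CurveGD k B₀ B₁ B₀₁ A) :
    CechOps A G.N₀ G.N₁ G.N₀₁ :=
  haveI := h.away₀
  haveI := h.away₁
  toCechOps x y h.mul_eq_one G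

theorem chartCechOps_d_zero (h : IsCurveChart k B₀ B₁ B₀₁ x y e) (G : CurveGD k B₀ B₁ B₀₁ A) :
    (chartCechOps h G).d 0 = G.cech := by
  haveI := h.away₀
  haveI := h.away₁
  exact toCechOps_d_zero x y h.mul_eq_one G

theorem chartCechOps_H0_zero (h : IsCurveChart k B₀ B₁ B₀₁ x y e) (G : CurveGD k B₀ B₁ B₀₁ A) :
    (chartCechOps h G).H0 0 = G.H0 := by
  haveI := h.away₀
  haveI := h.away₁
  exact toCechOps_H0_zero x y h.mul_eq_one G

theorem isFGProj_X0 (h : IsCurveChart k B₀ B₁ B₀₁ x y e) (G : CurveGD k B₀ B₁ B₀₁ A) :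
    IsFGProj (chartCechOps h G).X0 := by
  haveI := h.isDomain₀
  haveI := G.invertible₀
  obtain ⟨n, φ, hφ⟩ := exists_equivariant_equiv (aeval_x_injective h) h.finite₀
  obtain ⟨Φ, hΦ⟩ := exists_equivariant_equiv_tensor φ hφ A
  exact isFGProj_lsmul ((1 : A) ⊗ₜ[k] x) Φ hΦ G.N₀

theorem isFGProj_Y1 (h : IsCurveChart k B₀ B₁ B₀₁ x y e) (G : CurveGD k B₀ B₁ B₀₁ A) :
    IsFGProj (chartCechOps h G).Y1 := by
  haveI := h.isDomain₁
  haveI := G.invertible₁
  obtain ⟨n, φ, hφ⟩ := exists_equivariant_equiv (aeval_y_injective h) h.finite₁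
  obtain ⟨Φ, hΦ⟩ := exists_equivariant_equiv_tensor φ hφ A
  exact isFGProj_lsmul ((1 : A) ⊗ₜ[k] y) Φ hΦ G.N₁

/-- `A ⊗ B[1/x]` is the localization of `A ⊗ B` at `1 ⊗ x`. -/
theorem isLocalization_away_tensor (B B' : Type u) [CommRing B] [CommRing B'] [Algebra k B]
    [Algebra k B'] [Algebra B B'] [IsScalarTower k B B'] (x : B) [IsLocalization.Away x B'] :
    IsLocalization.Away ((1 : A) ⊗ₜ[k] x : A ⊗[k] B) (A ⊗[k] B') := by
  have H : (algebraMap (A ⊗[k] B) (A ⊗[k] B')).comp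
      (Algebra.TensorProduct.includeRight (R := k) (A := A) (B := B)).toRingHom =
      (Algebra.TensorProduct.includeRight (R := k) (A := A) (B := B')).toRingHom.comp
        (algebraMap B B') := by
    ext b
    simp [algebraMap_tensor_tmul]
  have := IsLocalization.tensorProduct_tensorProduct_right k A (Submonoid.powers x) B' H
  rw [Submonoid.map_powers] at this
  exact this

theorem r0_injective (h : IsCurveChart k B₀ B₁ B₀₁ x y e) (G : CurveGD k B₀ B₁ B₀₁ A) :
    Function.Injective (chartCechOps h G).r0 := by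
  haveI := h.away₀
  haveI := h.away₁
  haveI : IsLocalization.Away ((1 : A) ⊗ₜ[k] x : A ⊗[k] B₀) (A ⊗[k] B₀₁) :=
    isLocalization_away_tensor B₀ B₀₁ x
  haveI : IsLocalizedModule (Submonoid.powers ((1 : A) ⊗ₜ[k] x : A ⊗[k] B₀)) G.r₀ :=
    (isLocalizedModule_iff_isBaseChange (Submonoid.powers ((1 : A) ⊗ₜ[k] x : A ⊗[k] B₀))
      (A ⊗[k] B₀₁) G.r₀).2 G.isBaseChange₀
  rw [injective_iff_map_eq_zero]
  intro n hn
  have hn' : G.r₀ n = 0 := hn
  rw [IsLocalizedModule.eq_zero_iff (Submonoid.powers ((1 : A) ⊗ₜ[k] x : A ⊗[k] B₀))] at hn'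
  obtain ⟨⟨_, j, rfl⟩, hj⟩ := hn'
  have hj' : ((chartCechOps h G).X0 ^ j) n = 0 := by
    rw [show chartCechOps h G = toCechOps x y h.mul_eq_one G from rfl, toCechOps_X0_pow_apply]
    exact hj
  exact injective_pow_of_isFGProj (isFGProj_X0 h G) j (by rw [hj', map_zero])

theorem r1_injective (h : IsCurveChart k B₀ B₁ B₀₁ x y e) (G : CurveGD k B₀ B₁ B₀₁ A) :
    Function.Injective (chartCechOps h G).r1 := by
  haveI := h.away₀
  haveI := h.away₁
  haveI : IsLocalization.Away ((1 : A) ⊗ₜ[k] y : A ⊗[k] B₁) (A ⊗[k] B₀₁) :=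
    isLocalization_away_tensor B₁ B₀₁ y
  haveI : IsLocalizedModule (Submonoid.powers ((1 : A) ⊗ₜ[k] y : A ⊗[k] B₁)) G.r₁ :=
    (isLocalizedModule_iff_isBaseChange (Submonoid.powers ((1 : A) ⊗ₜ[k] y : A ⊗[k] B₁))
      (A ⊗[k] B₀₁) G.r₁).2 G.isBaseChange₁
  rw [injective_iff_map_eq_zero]
  intro n hn
  have hn' : G.r₁ n = 0 := hn
  rw [IsLocalizedModule.eq_zero_iff (Submonoid.powers ((1 : A) ⊗ₜ[k] y : A ⊗[k] B₁))] at hn'
  obtain ⟨⟨_, j, rfl⟩, hj⟩ := hn'
  have hj' : ((chartCechOps h G).Y1 ^ j) n = 0 := by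
    rw [show chartCechOps h G = toCechOps x y h.mul_eq_one G from rfl, toCechOps_Y1_pow_apply]
    exact hj
  exact injective_pow_of_isFGProj (isFGProj_Y1 h G) j (by rw [hj', map_zero])

end Chart

end Fermat.Agent.S25.H250
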