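/-
S25, block CECH (squad S25/S10), leaf K1a (helper250): the degree bound.

`exists_fg_ge_H0` : for an operator-style two-chart Cech datum whose two chart modules are
equivariant retracts of `A[X]^n` and whose restriction maps are injective, the kernel
`H⁰(L(m∞))` of the twisted Cech differential is contained in a finitely generated
`A`-submodule of `N0 × N1`.

Mathlib-only commutative algebra on top of the frozen definitions in `H10/CechDefs.lean`.
-/
import Fermat.Agent.S25.H10.CechDefs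

set_option autoImplicit false

namespace Fermat.Agent.S25.H250

open Polynomial
open Fermat.Agent.S25.H10

universe u v

variable {A : Type u} [CommRing A]

/-- Vectors of polynomials all of whose coordinates have degree `≤ d`. -/
noncomputable def degBox (A : Type u) [CommRing A] (n d : ℕ) : Submodule A (Fin n → A[X]) :=
  Submodule.pi Set.univ (fun _ => Polynomial.degreeLE A (d : WithBot ℕ))

theorem mem_degBox {n d : ℕ} {w : Fin n → A[X]} :
    w ∈ degBox A n d ↔ ∀ j, (w j).degree ≤ (d : WithBot ℕ) := by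
  simp [degBox, Polynomial.mem_degreeLE]

theorem degBox_fg (n d : ℕ) : (degBox A n d).FG := by
  classical
  refine Submodule.fg_pi (fun _ => ?_)
  rw [Polynomial.degreeLE_eq_span_X_pow]
  exact Submodule.fg_span (Finset.finite_toSet _)

theorem degBox_mono {n d d' : ℕ} (h : d ≤ d') : degBox A n d ≤ degBox A n d' := by
  intro w hw
  rw [mem_degBox] at hw ⊢
  intro j
  exact (hw j).trans (by exact_mod_cast h)

theorem exists_mem_degBox (n : ℕ) (w : Fin n → A[X]) : ∃ d, w ∈ degBox A n d := by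
  refine ⟨Finset.univ.sup (fun j => (w j).natDegree), ?_⟩
  rw [mem_degBox]
  intro j
  refine (Polynomial.degree_le_natDegree).trans ?_
  have : (w j).natDegree ≤ Finset.univ.sup (fun j => (w j).natDegree) :=
    Finset.le_sup (f := fun j => (w j).natDegree) (Finset.mem_univ j)
  exact_mod_cast this

theorem X_pow_smul_mem_degBox {n d : ℕ} (k : ℕ) {w : Fin n → A[X]} (h : w ∈ degBox A n d) :
    ((X : A[X]) ^ k) • w ∈ degBox A n (k + d) := by
  rw [mem_degBox] at h ⊢
  intro j
  rw [Pi.smul_apply, smul_eq_mul, Polynomial.degree_le_iff_coeff_zero]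
  intro i hi
  have hi' : k + d < i := by exact_mod_cast hi
  obtain ⟨i', rfl⟩ : ∃ i', i = i' + k := ⟨i - k, by omega⟩
  rw [Polynomial.coeff_X_pow_mul]
  refine (Polynomial.degree_le_iff_coeff_zero _ _).1 (h j) i' ?_
  have : d < i' := by omega
  exact_mod_cast this

theorem mem_degBox_of_X_pow_smul {n d : ℕ} (k : ℕ) {w : Fin n → A[X]}
    (h : ((X : A[X]) ^ k) • w ∈ degBox A n (k + d)) : w ∈ degBox A n d := by
  rw [mem_degBox] at h ⊢
  intro j
  rw [Polynomial.degree_le_iff_coeff_zero]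
  intro i hi
  have hi' : d < i := by exact_mod_cast hi
  have hj := (Polynomial.degree_le_iff_coeff_zero _ _).1 (h j) (i + k)
    (by
      have : k + d < i + k := by omega
      exact_mod_cast this)
  rwa [Pi.smul_apply, smul_eq_mul, Polynomial.coeff_X_pow_mul] at hj

section Equivariance

variable {N : Type v} [AddCommGroup N] [Module A N]

theorem iota_pow_of_equivariant (E : Module.End A N) {n : ℕ} (ι : N →ₗ[A] (Fin n → A[X]))
    (hι : ∀ v, ι (E v) = (X : A[X]) • ι v) (k : ℕ) (v : N) :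
    ι ((E ^ k) v) = ((X : A[X]) ^ k) • ι v := by
  induction k generalizing v with
  | zero => simp
  | succ k ih =>
    rw [pow_succ', Module.End.mul_apply, hι, ih, pow_succ', mul_smul]

theorem pi_pow_of_equivariant (E : Module.End A N) {n : ℕ} (π : (Fin n → A[X]) →ₗ[A] N)
    (hπ : ∀ w, π ((X : A[X]) • w) = E (π w)) (k : ℕ) (w : Fin n → A[X]) :
    π (((X : A[X]) ^ k) • w) = (E ^ k) (π w) := by
  induction k generalizing w with
  | zero => simp
  | succ k ih =>
    rw [pow_succ', mul_smul, hπ, ih, pow_succ', Module.End.mul_apply]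

end Equivariance

variable {N0 N1 N01 : Type v}
  [AddCommGroup N0] [AddCommGroup N1] [AddCommGroup N01]
  [Module A N0] [Module A N1] [Module A N01]

/-- The Cech datum with the roles of the two charts exchanged. -/
def cechSwap (D : CechOps A N0 N1 N01) : CechOps A N1 N0 N01 where
  X0 := D.Y1
  Y1 := D.X0
  T := D.Tinv
  Tinv := D.T
  r0 := D.r1
  r1 := D.r0
  T_mul_Tinv := D.Tinv_mul_T
  Tinv_mul_T := D.T_mul_Tinv
  r0_X0 := D.r1_Y1
  r1_Y1 := D.r0_X0
  loc0 := D.loc1
  loc1 := D.loc0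

/-- Uniform transport: a section on the second chart of "degree `≤ e`" becomes, after
multiplication by `x ^ (K + e)`, a section on the first chart of "degree `≤ e + d`". -/
theorem exists_transport_bound (D : CechOps A N0 N1 N01) {n0 n1 : ℕ}
    (ι0 : N0 →ₗ[A] (Fin n0 → A[X])) (hι0 : ∀ v, ι0 (D.X0 v) = (X : A[X]) • ι0 v)
    (π1 : (Fin n1 → A[X]) →ₗ[A] N1) (hπ1 : ∀ w, π1 ((X : A[X]) • w) = D.Y1 (π1 w)) :
    ∃ K d : ℕ, ∀ (e : ℕ) (w : Fin n1 → A[X]), w ∈ degBox A n1 e →
      ∃ v : N0, ι0 v ∈ degBox A n0 (e + d) ∧ (D.T ^ (K + e)) (D.r1 (π1 w)) = D.r0 v := by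
  classical
  have hloc : ∀ j : Fin n1, ∃ (k : ℕ) (n : N0),
      (D.T ^ k) (D.r1 (π1 (Pi.single j 1))) = D.r0 n := fun j => D.loc0 _
  choose k nn hk using hloc
  have hK : ∀ j, k j ≤ Finset.univ.sup k := fun j => Finset.le_sup (Finset.mem_univ j)
  generalize Finset.univ.sup k = K at hK
  have hnn' : ∀ j, (D.T ^ K) (D.r1 (π1 (Pi.single j 1))) =
      D.r0 ((D.X0 ^ (K - k j)) (nn j)) := by
    intro j
    rw [D.r0_X0_pow, ← hk j, ← Module.End.mul_apply, ← pow_add, Nat.sub_add_cancel (hK j)]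
  have hdeg : ∃ d, ∀ j, ι0 ((D.X0 ^ (K - k j)) (nn j)) ∈ degBox A n0 d := by
    choose dd hdd using fun j => exists_mem_degBox n0 (ι0 ((D.X0 ^ (K - k j)) (nn j)))
    exact ⟨Finset.univ.sup dd,
      fun j => degBox_mono (Finset.le_sup (Finset.mem_univ j)) (hdd j)⟩
  obtain ⟨d, hd⟩ := hdeg
  refine ⟨K, d, fun e => ?_⟩
  have key : degBox A n1 e ≤
      Submodule.comap ((D.T ^ (K + e)) ∘ₗ D.r1 ∘ₗ π1)
        (Submodule.map D.r0 (Submodule.comap ι0 (degBox A n0 (e + d)))) := by
    rw [degBox, ← Submodule.iSup_map_single]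
    refine iSup_le fun j => ?_
    rw [Submodule.map_le_iff_le_comap, Polynomial.degreeLE_eq_span_X_pow, Submodule.span_le]
    rintro _ hx
    simp only [Finset.coe_image, Set.mem_image, Finset.mem_coe, Finset.mem_range] at hx
    obtain ⟨i, hi, rfl⟩ := hx
    simp only [SetLike.mem_coe, Submodule.mem_comap, LinearMap.coe_comp, Function.comp_apply,
      Submodule.mem_map, LinearMap.coe_single]
    refine ⟨(D.X0 ^ (e - i)) ((D.X0 ^ (K - k j)) (nn j)), ?_, ?_⟩
    · rw [iota_pow_of_equivariant D.X0 ι0 hι0]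
      exact degBox_mono (by omega) (X_pow_smul_mem_degBox (e - i) (hd j))
    · have h1 : (Pi.single j ((X : A[X]) ^ i) : Fin n1 → A[X]) =
          ((X : A[X]) ^ i) • (Pi.single j 1 : Fin n1 → A[X]) := by
        rw [← Pi.single_smul, smul_eq_mul, mul_one]
      rw [h1, pi_pow_of_equivariant D.Y1 π1 hπ1, D.r1_Y1_pow, D.r0_X0_pow, ← hnn' j]
      have h2 : K + e = (e - i) + K + i := by omega
      rw [h2, pow_add, Module.End.mul_apply, D.T_pow_Tinv_pow_apply, pow_add,
        Module.End.mul_apply]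
  intro w hw
  obtain ⟨v, hv, hv'⟩ := key hw
  exact ⟨v, hv, hv'.symm⟩

/-- The first components of `H⁰(L(m∞))` lie in a finitely generated submodule. -/
theorem exists_fg_fst_H0 (D : CechOps A N0 N1 N01) (h0 : IsFGProj D.X0) (h1 : IsFGProj D.Y1)
    (hr0 : Function.Injective D.r0) (m : ℕ) :
    ∃ M0 : Submodule A N0, M0.FG ∧ ∀ p ∈ D.H0 m, p.1 ∈ M0 := by
  obtain ⟨n0, ι0, π0, hπι0, hι0, -⟩ := h0
  obtain ⟨n1, ι1, π1, hπι1, -, hπ1⟩ := h1
  obtain ⟨K, d, hA⟩ := exists_transport_bound D ι0 hι0 π1 hπ1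
  refine ⟨Submodule.map π0 (degBox A n0 (m + d)), (degBox_fg n0 (m + d)).map π0, ?_⟩
  rintro ⟨a, b⟩ hab
  rw [CechOps.mem_ker_d] at hab
  simp only at hab
  obtain ⟨e, he⟩ := exists_mem_degBox n1 (ι1 b)
  obtain ⟨v, hv, hv'⟩ := hA e (ι1 b) he
  have hb : π1 (ι1 b) = b := by
    have := LinearMap.congr_fun hπι1 b
    simpa using this
  rw [hb] at hv'
  have h2 : (D.X0 ^ (K + e)) a = (D.X0 ^ m) v := by
    apply hr0
    rw [D.r0_X0_pow, D.r0_X0_pow, hab, ← hv', ← Module.End.mul_apply, ← Module.End.mul_apply,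
      ← pow_add, ← pow_add, add_comm]
  have h3 : ((X : A[X]) ^ (K + e)) • ι0 a = ((X : A[X]) ^ m) • ι0 v := by
    rw [← iota_pow_of_equivariant D.X0 ι0 hι0, ← iota_pow_of_equivariant D.X0 ι0 hι0, h2]
  have h4 : ι0 a ∈ degBox A n0 (m + d) := by
    apply mem_degBox_of_X_pow_smul (K + e)
    rw [h3]
    exact degBox_mono (by omega) (X_pow_smul_mem_degBox m hv)
  refine ⟨ι0 a, h4, ?_⟩
  have := LinearMap.congr_fun hπι0 a
  simpa using this

/-- K1a (degree bound). `H⁰(L(m∞))` is contained in a finitely generated `A`-submodule. -/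
theorem exists_fg_ge_H0 (D : CechOps A N0 N1 N01) (h0 : IsFGProj D.X0) (h1 : IsFGProj D.Y1)
    (hr0 : Function.Injective D.r0) (hr1 : Function.Injective D.r1)
    (m : ℕ) : ∃ M : Submodule A (N0 × N1), M.FG ∧ D.H0 m ≤ M := by
  obtain ⟨M0, hM0, h0'⟩ := exists_fg_fst_H0 D h0 h1 hr0 m
  obtain ⟨M1, hM1, h1'⟩ := exists_fg_fst_H0 (cechSwap D) h1 h0 hr1 m
  refine ⟨M0.prod M1, hM0.prod hM1, ?_⟩
  rintro ⟨a, b⟩ hab
  refine ⟨h0' _ hab, h1' (b, a) ?_⟩
  rw [CechOps.mem_ker_d] at hab ⊢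
  show D.r1 b = (D.Tinv ^ m) (D.r0 a)
  simp only at hab
  rw [hab]
  exact (D.Tinv_pow_T_pow_apply m _).symm

end Fermat.Agent.S25.H250
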