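/-
S25, block DEGREE (squad S25/S10), leaf D1 (helper250): finiteness of Cech cohomology of a
gluing datum on a curve chart.  Exact statements of `H10/DegreeSkel.lean`.

* `finite_H1` : `Ȟ¹(G)` is a finite module over any base ring (E1/K2a + adapter);
* `finite_H0` : `Ȟ⁰(G)` is finite-dimensional over a field (K1a + adapter).
-/
import Fermat.Agent.S25.H10.K0
import Fermat.Agent.S25.H790.CechK2
import Fermat.Agent.S25.H250.AdapterProj
import Fermat.Agent.S25.H250.DegreeBound

set_option autoImplicit false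
set_option linter.style.haveILetI false
set_option linter.unusedSectionVars false

universe u

open scoped TensorProduct

namespace Fermat.Agent.S25.H250

open Fermat.Agent.S25 Fermat.Agent.S25.H10

variable {k : Type u} [Field k] {B₀ B₁ B₀₁ : Type u} [CommRing B₀] [CommRing B₁] [CommRing B₀₁]
  [Algebra k B₀] [Algebra k B₁] [Algebra k B₀₁] [Algebra B₀ B₀₁] [Algebra B₁ B₀₁]
  [IsScalarTower k B₀ B₀₁] [IsScalarTower k B₁ B₀₁]
  {x : B₀} {y : B₁} {e : B₁ →ₐ[k] k}

/-- D1-a. `Ȟ¹` is a finite module over any base ring (E1 + adapter). -/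
theorem finite_H1 (hC : IsCurveChart k B₀ B₁ B₀₁ x y e) {A : Type u} [CommRing A]
    [Algebra k A] (G : CurveGD k B₀ B₁ B₀₁ A) : Module.Finite A G.H1 := by
  have h := H790.H1_finite (chartCechOps hC G) (H10.isFG_of_isFGProj (isFGProj_X0 hC G)) 0
  have hd := chartCechOps_d_zero hC G
  show Module.Finite A (G.N₀₁ ⧸ LinearMap.range G.cech)
  rw [← hd]
  exact h

/-- `Ȟ⁰` lies in a finitely generated submodule, over any base ring. -/
theorem exists_fg_ge_H0_curve (hC : IsCurveChart k B₀ B₁ B₀₁ x y e) {A : Type u} [CommRing A]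
    [Algebra k A] (G : CurveGD k B₀ B₁ B₀₁ A) :
    ∃ M : Submodule A (G.N₀ × G.N₁), M.FG ∧ G.H0 ≤ M := by
  obtain ⟨M, hM, hle⟩ := exists_fg_ge_H0 (chartCechOps hC G) (isFGProj_X0 hC G)
    (isFGProj_Y1 hC G) (r0_injective hC G) (r1_injective hC G) 0
  refine ⟨M, hM, ?_⟩
  rw [← chartCechOps_H0_zero hC G]
  exact hle

/-- D1-b. `Ȟ⁰` is finite-dimensional over a field (K1a + adapter). -/
theorem finite_H0 (hC : IsCurveChart k B₀ B₁ B₀₁ x y e) {K : Type u} [Field K]
    [Algebra k K] (G : CurveGD k B₀ B₁ B₀₁ K) : Module.Finite K G.H0 := by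
  obtain ⟨M, hM, hle⟩ := exists_fg_ge_H0_curve hC G
  haveI : Module.Finite K M := Module.Finite.iff_fg.2 hM
  exact Module.Finite.of_injective (Submodule.inclusion hle) (Submodule.inclusion_injective hle)

/-- `Ȟ¹` is finite-dimensional over a field. -/
theorem finite_H1_field (hC : IsCurveChart k B₀ B₁ B₀₁ x y e) {K : Type u} [Field K]
    [Algebra k K] (G : CurveGD k B₀ B₁ B₀₁ K) : Module.Finite K G.H1 :=
  finite_H1 hC G

end Fermat.Agent.S25.H250
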