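/-
S25, block DEGREE (squad S25/S10), ADAPTER leaf AD3 (helper250): the adapter `toCechOps` and
the twists `twistE` of `H10/DegreeDefs.lean`.

* `toCechOps_twistE_d` : for `z : ℤ`, `n m : ℕ` with `z + n = m`,
  `(toCechOps (twistE G z)).d n = (toCechOps G).d m`;
* `toCechOps_twistE_d_zero` : `(toCechOps (twistE G n)).d 0 = (toCechOps G).d n`;
* `toCechOps_twistE_neg_d` : `(toCechOps (twistE G (-n))).d n = (toCechOps G).d 0`;
* `twistE_cech_eq_d` : `(twistE G n).cech = (toCechOps G).d n`;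
* `twistE_neg_cech_apply` : `(twistE G (-n)).cech (a, b) = r₀ a - Tinv ^ n (r₁ b)`;
* the same for `chartCechOps`.
-/
import Fermat.Agent.S25.H10.DegreeDefs
import Fermat.Agent.S25.H250.AdapterProj
import Fermat.Agent.S25.H10.K0
import Fermat.Agent.S25.H790.CechK2

set_option autoImplicit false
set_option linter.style.haveILetI false
set_option linter.unusedSectionVars false

universe u

open scoped TensorProduct

namespace Fermat.Agent.S25.H250

open Fermat.Agent.S25 Fermat.Agent.S25.H10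

variable {k : Type u} [Field k] {B₀ B₁ B₀₁ : Type u} [CommRing B₀] [CommRing B₁] [CommRing B₀₁]
  [Algebra k B₀] [Algebra k B₁] [Algebra k B₀₁] [Algebra B₀ B₀₁] [Algebra B₁ B₀₁]
  [IsScalarTower k B₀ B₀₁] [IsScalarTower k B₁ B₀₁]
  {A : Type u} [CommRing A] [Algebra k A]

section

variable (x : B₀) (y : B₁) [IsLocalization.Away x B₀₁] [IsLocalization.Away y B₀₁]
  (hxy : algebraMap B₀ B₀₁ x * algebraMap B₁ B₀₁ y = 1) (G : CurveGD k B₀ B₁ B₀₁ A)

theorem xUnit_val : ((xUnit x y hxy A : (A ⊗[k] B₀₁)ˣ) : A ⊗[k] B₀₁) =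
    (1 : A) ⊗ₜ[k] algebraMap B₀ B₀₁ x := rfl

theorem xUnit_zpow_add_val (z : ℤ) (n m : ℕ) (h : z + n = m) :
    ((1 : A) ⊗ₜ[k] algebraMap B₀ B₀₁ x : A ⊗[k] B₀₁) ^ n *
      (((xUnit x y hxy A) ^ z : (A ⊗[k] B₀₁)ˣ) : A ⊗[k] B₀₁) =
    ((1 : A) ⊗ₜ[k] algebraMap B₀ B₀₁ x : A ⊗[k] B₀₁) ^ m := by
  rw [← xUnit_val x y hxy, ← Units.val_pow_eq_pow_val, ← Units.val_pow_eq_pow_val,
    ← Units.val_mul, ← zpow_natCast, ← zpow_natCast, ← zpow_add, ← h, add_comm]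

theorem twistE_cech_apply (z : ℤ) (a : G.N₀) (b : G.N₁) :
    (twistE x y hxy G z).cech (a, b) =
      (G.r₀ a - (((xUnit x y hxy A) ^ z : (A ⊗[k] B₀₁)ˣ) : A ⊗[k] B₀₁) • G.r₁ b : G.N₀₁) :=
  gdTwist_cech_apply G _ a b

/-- AD3, general form, applied. -/
theorem toCechOps_twistE_d_apply (z : ℤ) (n m : ℕ) (h : z + n = m) (a : G.N₀) (b : G.N₁) :
    ((toCechOps x y hxy (twistE x y hxy G z)).d n : (G.N₀ × G.N₁) →ₗ[A] G.N₀₁) (a, b) =
      (toCechOps x y hxy G).d m (a, b) := by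
  show (G.r₀ a + -(((toCechOps x y hxy G).T ^ n)
      ((((xUnit x y hxy A) ^ z : (A ⊗[k] B₀₁)ˣ) : A ⊗[k] B₀₁) • G.r₁ b)) : G.N₀₁) =
    G.r₀ a + -(((toCechOps x y hxy G).T ^ m) (G.r₁ b))
  rw [toCechOps_T_pow_apply, toCechOps_T_pow_apply, smul_smul,
    xUnit_zpow_add_val x y hxy z n m h]

/-- AD3, general form. -/
theorem toCechOps_twistE_d (z : ℤ) (n m : ℕ) (h : z + n = m) :
    ((toCechOps x y hxy (twistE x y hxy G z)).d n : (G.N₀ × G.N₁) →ₗ[A] G.N₀₁) =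
      (toCechOps x y hxy G).d m :=
  LinearMap.ext fun p => toCechOps_twistE_d_apply x y hxy G z n m h p.1 p.2

/-- AD3. -/
theorem toCechOps_twistE_d_zero (n : ℕ) :
    ((toCechOps x y hxy (twistE x y hxy G (n : ℤ))).d 0 : (G.N₀ × G.N₁) →ₗ[A] G.N₀₁) =
      (toCechOps x y hxy G).d n :=
  toCechOps_twistE_d x y hxy G (n : ℤ) 0 n (by simp)

/-- AD3, negative twists: `G(-n)(n) = G`. -/
theorem toCechOps_twistE_neg_d (n : ℕ) :
    ((toCechOps x y hxy (twistE x y hxy G (-(n : ℤ)))).d n : (G.N₀ × G.N₁) →ₗ[A] G.N₀₁) =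
      (toCechOps x y hxy G).d 0 :=
  toCechOps_twistE_d x y hxy G (-(n : ℤ)) n 0 (by simp)

/-- The Cech differential of `G(n)` is the `n`-fold twisted differential of `G`. -/
theorem twistE_cech_eq_d (n : ℕ) :
    ((twistE x y hxy G (n : ℤ)).cech : (G.N₀ × G.N₁) →ₗ[A] G.N₀₁) =
      (toCechOps x y hxy G).d n := by
  have h1 := toCechOps_d_zero x y hxy (twistE x y hxy G (n : ℤ))
  have h2 := toCechOps_twistE_d_zero x y hxy G n
  exact h1.symm.trans h2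

theorem twistE_H0_eq (n : ℕ) :
    ((twistE x y hxy G (n : ℤ)).H0 : Submodule A (G.N₀ × G.N₁)) =
      (toCechOps x y hxy G).H0 n :=
  congrArg LinearMap.ker (twistE_cech_eq_d x y hxy G n)

theorem twistE_range_cech_eq (n : ℕ) :
    (LinearMap.range (twistE x y hxy G (n : ℤ)).cech : Submodule A G.N₀₁) =
      LinearMap.range ((toCechOps x y hxy G).d n) :=
  congrArg LinearMap.range (twistE_cech_eq_d x y hxy G n)

/-- The Cech differential of `G(-n)`: `(a, b) ↦ r₀ a - Tinv ^ n (r₁ b)`. -/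
theorem twistE_neg_cech_apply (n : ℕ) (a : G.N₀) (b : G.N₁) :
    ((twistE x y hxy G (-(n : ℤ))).cech (a, b) : G.N₀₁) =
      (toCechOps x y hxy G).r0 a -
        ((toCechOps x y hxy G).Tinv ^ n) ((toCechOps x y hxy G).r1 b) := by
  rw [twistE_cech_apply]
  show (G.r₀ a - _ : G.N₀₁) = G.r₀ a - ((toCechOps x y hxy G).Tinv ^ n) (G.r₁ b)
  congr 1
  -- `u ^ (-n) • z = Tinv ^ n z`
  have h := (toCechOps x y hxy G).Tinv_pow_T_pow_apply n
    ((((xUnit x y hxy A) ^ (-(n : ℤ)) : (A ⊗[k] B₀₁)ˣ) : A ⊗[k] B₀₁) • G.r₁ b)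
  rw [← h, toCechOps_T_pow_apply, smul_smul, xUnit_zpow_add_val x y hxy (-(n : ℤ)) n 0 (by simp),
    pow_zero, one_smul]

/-- `G(-n)` in terms of `G`: `(G(-n)).cech (a, b) = G.cech (a, (1 ⊗ y) ^ n • b)`. -/
theorem twistE_neg_cech_apply' (n : ℕ) (a : G.N₀) (b : G.N₁) :
    ((twistE x y hxy G (-(n : ℤ))).cech (a, b) : G.N₀₁) =
      G.cech (a, ((toCechOps x y hxy G).Y1 ^ n) b) := by
  rw [twistE_neg_cech_apply, ← (toCechOps x y hxy G).r1_Y1_pow, ← toCechOps_d_zero x y hxy G,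
    CechOps.d_apply]
  simp only [pow_zero, Module.End.one_apply]

end

section Chart

variable {x : B₀} {y : B₁} {e : B₁ →ₐ[k] k}

theorem chartCechOps_twistE_d (hC : IsCurveChart k B₀ B₁ B₀₁ x y e) (G : CurveGD k B₀ B₁ B₀₁ A)
    (z : ℤ) (n m : ℕ) (h : z + n = m) :
    ((chartCechOps hC (twistE x y hC.mul_eq_one G z)).d n : (G.N₀ × G.N₁) →ₗ[A] G.N₀₁) =
      (chartCechOps hC G).d m := by
  haveI := hC.away₀
  haveI := hC.away₁
  exact toCechOps_twistE_d x y hC.mul_eq_one G z n m h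

theorem chartCechOps_twistE_cech (hC : IsCurveChart k B₀ B₁ B₀₁ x y e)
    (G : CurveGD k B₀ B₁ B₀₁ A) (n : ℕ) :
    ((twistE x y hC.mul_eq_one G (n : ℤ)).cech : (G.N₀ × G.N₁) →ₗ[A] G.N₀₁) =
      (chartCechOps hC G).d n := by
  haveI := hC.away₀
  haveI := hC.away₁
  exact twistE_cech_eq_d x y hC.mul_eq_one G n

/-- K2 for gluing data: large twists kill `Ȟ¹`, over any base ring. -/
theorem exists_forall_twistE_cech_surjective (hC : IsCurveChart k B₀ B₁ B₀₁ x y e)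
    (G : CurveGD k B₀ B₁ B₀₁ A) :
    ∃ n₀ : ℕ, ∀ n : ℕ, n₀ ≤ n →
      Function.Surjective (twistE x y hC.mul_eq_one G (n : ℤ)).cech := by
  obtain ⟨n₀, h⟩ := H790.exists_forall_d_surjective (chartCechOps hC G)
    (H10.isFG_of_isFGProj (isFGProj_X0 hC G))
  refine ⟨n₀, fun n hn => ?_⟩
  have h1 := h n hn
  rw [← chartCechOps_twistE_cech hC G n] at h1
  exact h1

end Chart

end Fermat.Agent.S25.H250
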