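/-
S25, block ALGCHARTS, input DEG1 from block DEGREE (helper250): exact statement of
`origin/helper11:coord/S25-ALGCHARTS-skeleton.lean`.

* `finrank_sec` : if `deg G = 0` and `H¹(G(n E₀)) = 0` then `dim H⁰(G(n E₀)) = n d + 1 - g`.
* `tcech_eq_d`  : the twisted differential `tcech x n G` of `H11/ACDefs.lean` is the twisted
  differential `(chartCechOps hC G).d n` of the operator-style Cech core.
-/
import Fermat.Agent.S25.H11.ACDefs
import Fermat.Agent.S25.H250.TwistEuler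
import Fermat.Agent.S25.H671.UnitH0
import Fermat.Agent.S25.H310.DegreeD2

set_option autoImplicit false
set_option linter.style.haveILetI false
set_option linter.unusedSectionVars false

universe u

open scoped TensorProduct

namespace Fermat.Agent.S25.H250

open Fermat.Agent.S25 Fermat.Agent.S25.H10 Fermat.Agent.S25.H11

variable {k : Type u} [Field k]
  {B₀ B₁ B₀₁ : Type u} [CommRing B₀] [CommRing B₁] [CommRing B₀₁]
  [Algebra k B₀] [Algebra k B₁] [Algebra k B₀₁] [Algebra B₀ B₀₁] [Algebra B₁ B₀₁]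
  [IsScalarTower k B₀ B₀₁] [IsScalarTower k B₁ B₀₁]
  {x : B₀} {y : B₁} {e : B₁ →ₐ[k] k}

/-- The twisted differential of `ACDefs` is the twisted differential of the adapter. -/
theorem tcech_eq_d (hC : IsCurveChart k B₀ B₁ B₀₁ x y e) {A : Type u} [CommRing A] [Algebra k A]
    (G : CurveGD k B₀ B₁ B₀₁ A) (n : ℕ) : tcech x n G = (chartCechOps hC G).d n := by
  haveI := hC.away₀
  haveI := hC.away₁
  apply LinearMap.ext
  rintro ⟨a, b⟩
  rw [tcech_apply, CechOps.d_apply]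
  show _ = G.r₀ a - ((toCechOps x y hC.mul_eq_one G).T ^ n) (G.r₁ b)
  rw [toCechOps_T_pow_apply]
  rfl

theorem sec_eq_H0 (hC : IsCurveChart k B₀ B₁ B₀₁ x y e) {A : Type u} [CommRing A] [Algebra k A]
    (G : CurveGD k B₀ B₁ B₀₁ A) (n : ℕ) : sec x n G = (chartCechOps hC G).H0 n := by
  show LinearMap.ker (tcech x n G) = LinearMap.ker ((chartCechOps hC G).d n)
  rw [tcech_eq_d hC G n]

/-- `H⁰(G(n E₀))` is finite-dimensional over a field. -/
theorem finite_ker_d (hC : IsCurveChart k B₀ B₁ B₀₁ x y e) {K : Type u} [Field K]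
    [Algebra k K] (G : CurveGD k B₀ B₁ B₀₁ K) (n : ℕ) :
    Module.Finite K (LinearMap.ker ((chartCechOps hC G).d n)) := by
  have h := finite_H0 hC (twistE x y hC.mul_eq_one G (n : ℤ))
  have h2 := chartCechOps_twistE_cech hC G n
  have h3 : ((twistE x y hC.mul_eq_one G (n : ℤ)).H0 : Submodule K (G.N₀ × G.N₁)) =
      LinearMap.ker ((chartCechOps hC G).d n) := congrArg LinearMap.ker h2
  rw [← h3]
  exact h

theorem finite_sec (hC : IsCurveChart k B₀ B₁ B₀₁ x y e) {K : Type u} [Field K]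
    [Algebra k K] (G : CurveGD k B₀ B₁ B₀₁ K) (n : ℕ) : Module.Finite K (sec x n G) := by
  rw [sec_eq_H0 hC G n]
  exact finite_ker_d hC G n

/-- `h⁰(G(n E₀)) - h¹(G(n E₀)) = χ(G) + n d`, in the language of `ACDefs`. -/
theorem eulerMap_tcech (hC : IsCurveChart k B₀ B₁ B₀₁ x y e) {K : Type u} [Field K]
    [Algebra k K] (G : CurveGD k B₀ B₁ B₀₁ K) (n : ℕ) :
    eulerMap (tcech x n G) = G.euler + n * chartDeg k y := by
  rw [tcech_eq_d hC G n, eulerMap_d hC G n, chartCechOps_d_zero]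
  rfl

variable [IsAlgClosed k]

/-- `χ(G) = deg G + 1 - g`, with `g = h¹` of the unit datum over `k`. -/
theorem euler_eq_degree_add (hC : IsCurveChart k B₀ B₁ B₀₁ x y e) {K : Type u} [Field K]
    [Algebra k K] (G : CurveGD k B₀ B₁ B₀₁ K) :
    G.euler = G.degree + 1 -
      (Module.finrank k (GlueDatum.unit k (k ⊗[k] B₀) (k ⊗[k] B₁) (k ⊗[k] B₀₁)).H1 : ℤ) := by
  have h1 := H671.euler_unit hC K
  have h2 := H310.D2.finrank_H1_eq_of_isBC hC (Algebra.ofId k K)
    (H310.D2.unit_isBC (B₀ := B₀) (B₁ := B₁) (B₀₁ := B₀₁) (Algebra.ofId k K))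
  rw [h2] at h1
  have h3 : G.degree = G.euler -
      (GlueDatum.unit K (K ⊗[k] B₀) (K ⊗[k] B₁) (K ⊗[k] B₀₁)).euler := rfl
  rw [h3, h1]
  ring

/-- DEG1 (`χ(G(nE₀)) = χ(G) + n d`, `χ(O_K) = 1 - g`): if `deg G = 0` and `H¹(G(nE₀)) = 0` then
`dim H⁰(G(nE₀)) = n d + 1 - g`. -/
theorem finrank_sec {K : Type u} [Field K] [Algebra k K]
    (hC : IsCurveChart k B₀ B₁ B₀₁ x y e) (G : CurveGD k B₀ B₁ B₀₁ K)
    (hdeg : G.degree = 0) (n : ℕ) (h0 : P0 x n G) :
    Module.Finite K (sec x n G) ∧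
      Module.finrank K (sec x n G) +
          Module.finrank k (GlueDatum.unit k (k ⊗[k] B₀) (k ⊗[k] B₁) (k ⊗[k] B₀₁)).H1 =
        n * Module.finrank k (B₁ ⧸ Ideal.span {y}) + 1 := by
  refine ⟨finite_sec hC G n, ?_⟩
  have h1 := eulerMap_tcech hC G n
  rw [euler_eq_degree_add hC G, hdeg] at h1
  have hcoker : Module.finrank K (G.N₀₁ ⧸ LinearMap.range (tcech x n G)) = 0 := by
    have : LinearMap.range (tcech x n G) = ⊤ := LinearMap.range_eq_top.2 h0
    rw [this]
    haveI : Subsingleton (G.N₀₁ ⧸ (⊤ : Submodule K G.N₀₁)) :=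
      Submodule.Quotient.subsingleton_iff.2 rfl
    exact Module.finrank_zero_of_subsingleton
  unfold eulerMap at h1
  rw [hcoker] at h1
  have h2 : chartDeg k y = Module.finrank k (B₁ ⧸ Ideal.span {y}) := rfl
  rw [h2] at h1
  have h3 : (Module.finrank K (sec x n G) : ℤ) +
      (Module.finrank k (GlueDatum.unit k (k ⊗[k] B₀) (k ⊗[k] B₁) (k ⊗[k] B₀₁)).H1 : ℤ) =
      (n : ℤ) * (Module.finrank k (B₁ ⧸ Ideal.span {y}) : ℤ) + 1 := by
    have h4 : (Module.finrank K (LinearMap.ker (tcech x n G)) : ℤ) =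
        (Module.finrank K (sec x n G) : ℤ) := rfl
    rw [h4] at h1
    push_cast at h1
    linarith
  exact_mod_cast h3

end Fermat.Agent.S25.H250
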