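/-
S25, block ALGCHARTS, input DEG2 from block DEGREE (helper250): exact statement of
`origin/helper11:coord/S25-ALGCHARTS-skeleton.lean`.

* `degree_eq_of_section` : a section `s` of `G(n E₀)` which does not vanish on `E₀` has
  `dim N₀ / (s₀) = deg G + n d`.
* `finrank_coker₁_eq_coker₀₁` : for a morphism of gluing data whose cokernel on the second chart
  is finite-dimensional with `y` acting surjectively on it, the cokernels on the second chart
  and on the overlap have the same dimension.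
-/
import Fermat.Agent.S25.H11.ACDefs
import Fermat.Agent.S25.H250.DegSec
import Fermat.Agent.S25.H565.DegreeD3

set_option autoImplicit false
set_option linter.style.haveILetI false
set_option linter.unusedSectionVars false

universe u

open scoped TensorProduct

namespace Fermat.Agent.S25.H250

open Fermat.Agent.S25 Fermat.Agent.S25.H10 Fermat.Agent.S25.H11

section General

variable {A R₀ R₁ R₀₁ : Type u} [CommRing A] [CommRing R₀] [CommRing R₁]
    [CommRing R₀₁] [Algebra A R₀] [Algebra A R₁] [Algebra A R₀₁] [Algebra R₀ R₀₁]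
    [Algebra R₁ R₀₁] [IsScalarTower A R₀ R₀₁] [IsScalarTower A R₁ R₀₁]
    {G G' : GlueDatum A R₀ R₁ R₀₁}

/-- The `A`-linear map `N₁' → N₀₁' / range f₀₁` induced by the restriction `r₁`. -/
noncomputable def cokerRes₁ (f : GDHom G G') :
    G'.N₁ →ₗ[A] (G'.N₀₁ ⧸ LinearMap.range f.f₀₁) :=
  ((LinearMap.range f.f₀₁).mkQ.restrictScalars A).comp (G'.r₁.restrictScalars A)

theorem cokerRes₁_apply (f : GDHom G G') (c : G'.N₁) :
    cokerRes₁ f c = Submodule.Quotient.mk (G'.r₁ c) := rfl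

theorem isLocalizedModule_r₁ (y₁ : R₁) [IsLocalization.Away y₁ R₀₁]
    (G : GlueDatum A R₀ R₁ R₀₁) : IsLocalizedModule (Submonoid.powers y₁) G.r₁ :=
  (isLocalizedModule_iff_isBaseChange (Submonoid.powers y₁) R₀₁ G.r₁).mpr G.isBaseChange₁

/-- An element of `N₁'` whose restriction lies in the image of `f₀₁` is, up to a power of `y₁`,
in the image of `f₁`. -/
theorem exists_pow_smul_mem_range (y₁ : R₁) [IsLocalization.Away y₁ R₀₁] (f : GDHom G G')
    (c : G'.N₁) (hc : G'.r₁ c ∈ LinearMap.range f.f₀₁) :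
    ∃ j : ℕ, y₁ ^ j • c ∈ LinearMap.range f.f₁ := by
  obtain ⟨z, hz⟩ := hc
  haveI := isLocalizedModule_r₁ y₁ G
  haveI := isLocalizedModule_r₁ y₁ G'
  obtain ⟨⟨w, ⟨_, j, rfl⟩⟩, hw⟩ := IsLocalizedModule.surj (Submonoid.powers y₁) G.r₁ z
  have hw' : (y₁ ^ j) • z = G.r₁ w := hw
  have h1 : G'.r₁ (y₁ ^ j • c - f.f₁ w) = 0 := by
    rw [map_sub, map_smul, ← f.comm₁, ← hw', ← hz, sub_eq_zero]
    rw [← algebraMap_smul R₀₁ (y₁ ^ j) z, map_smul, algebraMap_smul]
  obtain ⟨⟨_, l, rfl⟩, hl⟩ :=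
    (IsLocalizedModule.eq_zero_iff (Submonoid.powers y₁) G'.r₁).mp h1
  have hl' : y₁ ^ l • (y₁ ^ j • c - f.f₁ w) = 0 := hl
  refine ⟨l + j, y₁ ^ l • w, ?_⟩
  rw [smul_sub, sub_eq_zero] at hl'
  rw [map_smul, ← hl', smul_smul, pow_add]

/-- The restriction of a power of `y₁`-division: every element of `N₀₁'` is congruent modulo the
image of `f₀₁` to a restriction, if `y₁` acts surjectively on the cokernel of `f₁`. -/
theorem cokerRes₁_surjective (y₁ : R₁) [IsLocalization.Away y₁ R₀₁] (f : GDHom G G')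
    (hsurj : ∀ c : G'.N₁, ∃ c' : G'.N₁, c - y₁ • c' ∈ LinearMap.range f.f₁) :
    Function.Surjective (cokerRes₁ (A := A) f) := by
  have hpow : ∀ (j : ℕ) (c : G'.N₁), ∃ c' : G'.N₁, c - y₁ ^ j • c' ∈ LinearMap.range f.f₁ := by
    intro j
    induction j with
    | zero => intro c; exact ⟨c, by simp⟩
    | succ j ih =>
      intro c
      obtain ⟨c₁, h₁⟩ := ih c
      obtain ⟨c₂, h₂⟩ := hsurj c₁
      refine ⟨c₂, ?_⟩
      have h3 : c - y₁ ^ (j + 1) • c₂ = (c - y₁ ^ j • c₁) + y₁ ^ j • (c₁ - y₁ • c₂) := by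
        rw [smul_sub, smul_smul, pow_succ]; abel
      rw [h3]
      exact Submodule.add_mem _ h₁ (Submodule.smul_mem _ _ h₂)
  haveI := isLocalizedModule_r₁ y₁ G'
  intro q
  obtain ⟨z', rfl⟩ := Submodule.Quotient.mk_surjective _ q
  obtain ⟨⟨c, ⟨_, j, rfl⟩⟩, hc⟩ := IsLocalizedModule.surj (Submonoid.powers y₁) G'.r₁ z'
  have hc' : (y₁ ^ j) • z' = G'.r₁ c := hc
  obtain ⟨c', w, hw⟩ := hpow j c
  refine ⟨c', ?_⟩
  rw [cokerRes₁_apply]
  rw [Submodule.Quotient.eq]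
  -- `y₁ ^ j • (z' - r₁ c') = r₁ (f₁ w) = f₀₁ (r₁ w)`
  have hu : IsUnit (algebraMap R₁ R₀₁ (y₁ ^ j)) := by
    rw [map_pow]
    exact (IsLocalization.Away.algebraMap_isUnit (S := R₀₁) y₁).pow j
  obtain ⟨u, hu⟩ := hu
  have h4 : (u : R₀₁) • (G'.r₁ c' - z') = f.f₀₁ (-(G.r₁ w)) := by
    rw [hu, algebraMap_smul, smul_sub, hc', ← map_smul, ← map_sub, map_neg, f.comm₁, hw,
      ← map_neg]
    congr 1
    abel
  have h5 : G'.r₁ c' - z' = f.f₀₁ (((u⁻¹ : R₀₁ˣ) : R₀₁) • (-(G.r₁ w))) := by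
    rw [map_smul, ← h4, smul_smul, Units.inv_mul, one_smul]
  rw [h5]
  exact LinearMap.mem_range_self _ _

theorem ker_cokerRes₁ (y₁ : R₁) [IsLocalization.Away y₁ R₀₁] (f : GDHom G G')
    (hinj : ∀ c : G'.N₁, y₁ • c ∈ LinearMap.range f.f₁ → c ∈ LinearMap.range f.f₁) :
    LinearMap.ker (cokerRes₁ (A := A) f) = (LinearMap.range f.f₁).restrictScalars A := by
  have hpow : ∀ (j : ℕ) (c : G'.N₁), y₁ ^ j • c ∈ LinearMap.range f.f₁ →
      c ∈ LinearMap.range f.f₁ := by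
    intro j
    induction j with
    | zero => intro c hc; simpa using hc
    | succ j ih =>
      intro c hc
      apply ih
      apply hinj
      rwa [smul_smul, ← pow_succ']
  ext c
  rw [LinearMap.mem_ker, cokerRes₁_apply, Submodule.Quotient.mk_eq_zero,
    Submodule.restrictScalars_mem]
  constructor
  · intro hc
    obtain ⟨j, hj⟩ := exists_pow_smul_mem_range y₁ f c hc
    exact hpow j c hj
  · rintro ⟨w, rfl⟩
    exact ⟨G.r₁ w, f.comm₁ w⟩

end General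

section Field

variable {K R₀ R₁ R₀₁ : Type u} [Field K] [CommRing R₀] [CommRing R₁]
    [CommRing R₀₁] [Algebra K R₀] [Algebra K R₁] [Algebra K R₀₁] [Algebra R₀ R₀₁]
    [Algebra R₁ R₀₁] [IsScalarTower K R₀ R₀₁] [IsScalarTower K R₁ R₀₁]
    {G G' : GlueDatum K R₀ R₁ R₀₁}

/-- If `y₁` acts surjectively on the finite-dimensional cokernel of `f₁`, it acts injectively. -/
theorem mem_range_of_smul_mem_range (y₁ : R₁) (f : GDHom G G')
    (hfin : Module.Finite K (G'.N₁ ⧸ LinearMap.range f.f₁))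
    (hsurj : ∀ c : G'.N₁, ∃ c' : G'.N₁, c - y₁ • c' ∈ LinearMap.range f.f₁)
    (c : G'.N₁) (hc : y₁ • c ∈ LinearMap.range f.f₁) : c ∈ LinearMap.range f.f₁ := by
  let Y : (G'.N₁ ⧸ LinearMap.range f.f₁) →ₗ[K] (G'.N₁ ⧸ LinearMap.range f.f₁) :=
    Algebra.lsmul K K (G'.N₁ ⧸ LinearMap.range f.f₁) y₁
  have hY : ∀ c : G'.N₁, Y (Submodule.Quotient.mk c) = Submodule.Quotient.mk (y₁ • c) :=
    fun c => rfl
  have hYs : Function.Surjective Y := by
    intro q
    obtain ⟨c, rfl⟩ := Submodule.Quotient.mk_surjective _ q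
    obtain ⟨c', hc'⟩ := hsurj c
    refine ⟨Submodule.Quotient.mk c', ?_⟩
    rw [hY, eq_comm, Submodule.Quotient.eq]
    exact hc'
  have hYi : Function.Injective Y := LinearMap.injective_iff_surjective.mpr hYs
  rw [← Submodule.Quotient.mk_eq_zero] at hc ⊢
  apply hYi
  rw [map_zero, hY]
  exact hc

/-- For a morphism of gluing data over a field such that `y₁` acts surjectively on the
finite-dimensional cokernel on the second chart (the cokernel is supported away from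
`y₁ = 0`), the cokernels on the second chart and on the overlap have the same dimension. -/
theorem finrank_coker₁_eq_coker₀₁ (y₁ : R₁) [IsLocalization.Away y₁ R₀₁] (f : GDHom G G')
    (hfin : Module.Finite K (G'.N₁ ⧸ LinearMap.range f.f₁))
    (hsurj : ∀ c : G'.N₁, ∃ c' : G'.N₁, c - y₁ • c' ∈ LinearMap.range f.f₁) :
    Module.finrank K (G'.N₁ ⧸ LinearMap.range f.f₁) =
      Module.finrank K (G'.N₀₁ ⧸ LinearMap.range f.f₀₁) := by
  have hinj := mem_range_of_smul_mem_range y₁ f hfin hsurj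
  have e1 := LinearMap.quotKerEquivOfSurjective (cokerRes₁ (A := K) f)
    (cokerRes₁_surjective y₁ f hsurj)
  have e2 : (G'.N₁ ⧸ LinearMap.range f.f₁) ≃ₗ[K]
      (G'.N₁ ⧸ LinearMap.ker (cokerRes₁ (A := K) f)) :=
    (Submodule.Quotient.restrictScalarsEquiv K (LinearMap.range f.f₁)).symm.trans
      (Submodule.quotEquivOfEq _ _ (ker_cokerRes₁ y₁ f hinj).symm)
  exact (e2.trans e1).finrank_eq

end Field

section Chart

variable {k : Type u} [Field k]
  {B₀ B₁ B₀₁ : Type u} [CommRing B₀] [CommRing B₁] [CommRing B₀₁]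
  [Algebra k B₀] [Algebra k B₁] [Algebra k B₀₁] [Algebra B₀ B₀₁] [Algebra B₁ B₀₁]
  [IsScalarTower k B₀ B₀₁] [IsScalarTower k B₁ B₀₁]
  {x : B₀} {y : B₁} {e : B₁ →ₐ[k] k}

/-- `sec x n G` is `Ȟ⁰` of the twist `G(n E₀)`. -/
theorem mem_twistE_H0_iff (hC : IsCurveChart k B₀ B₁ B₀₁ x y e) {A : Type u} [CommRing A]
    [Algebra k A] (G : CurveGD k B₀ B₁ B₀₁ A) (n : ℕ) (s : G.N₀ × G.N₁) :
    (s : (twistE x y hC.mul_eq_one G (n : ℤ)).N₀ × (twistE x y hC.mul_eq_one G (n : ℤ)).N₁) ∈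
      (twistE x y hC.mul_eq_one G (n : ℤ)).H0 ↔ s ∈ sec x n G := by
  have h1 : ((twistE x y hC.mul_eq_one G (n : ℤ)).cech : (G.N₀ × G.N₁) →ₗ[A] G.N₀₁) =
      tcech x n G := (chartCechOps_twistE_cech hC G n).trans (tcech_eq_d hC G n).symm
  have h2 : ((twistE x y hC.mul_eq_one G (n : ℤ)).H0 : Submodule A (G.N₀ × G.N₁)) =
      sec x n G := congrArg LinearMap.ker h1
  exact iff_of_eq (congrArg (fun S : Submodule A (G.N₀ × G.N₁) => s ∈ S) h2)

/-- A generator of `N₁` modulo `y` is nonzero. -/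
theorem ne_zero_of_genModY (hC : IsCurveChart k B₀ B₁ B₀₁ x y e) {K : Type u} [Field K]
    [Algebra k K] (G : CurveGD k B₀ B₁ B₀₁ K) (b : G.N₁) (hgen : GenModY y G b) : b ≠ 0 := by
  rintro rfl
  have htop : LinearMap.range (chartCechOps hC G).Y1 = ⊤ := by
    rw [eq_top_iff]
    intro c _
    obtain ⟨r, hr⟩ := hgen c
    rw [smul_zero, sub_zero, Submodule.ideal_span_singleton_smul] at hr
    obtain ⟨c', -, hc'⟩ := hr
    exact ⟨c', hc'⟩
  have h1 := finrank_quotient_Y1 hC G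
  have h2 := chartDeg_pos hC
  rw [htop] at h1
  have h3 : Module.finrank K (G.N₁ ⧸ (⊤ : Submodule K G.N₁)) = 0 := by
    haveI : Subsingleton (G.N₁ ⧸ (⊤ : Submodule K G.N₁)) :=
      Submodule.Quotient.subsingleton_iff.mpr rfl
    exact Module.finrank_zero_of_subsingleton
  omega

/-- **DEG2** (degree = degree of the divisor of a section): a section `s` of `G(n E₀)` which
does not vanish on `E₀` has `dim N₀ / (s₀) = deg G + n d`. -/
theorem degree_eq_of_section [IsAlgClosed k] {K : Type u} [Field K] [Algebra k K]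
    (hC : IsCurveChart k B₀ B₁ B₀₁ x y e)
    (G : CurveGD k B₀ B₁ B₀₁ K) (n : ℕ) (s : G.N₀ × G.N₁) (hs : s ∈ sec x n G)
    (hgen : GenModY y G s.2) :
    Module.Finite K (G.N₀ ⧸ Submodule.span (K ⊗[k] B₀) {s.1}) ∧
      G.degree = (Module.finrank K (G.N₀ ⧸ Submodule.span (K ⊗[k] B₀) {s.1}) : ℤ) -
        (n * Module.finrank k (B₁ ⧸ Ideal.span {y}) : ℕ) := by
  have hs' := (mem_twistE_H0_iff hC G n s).mpr hs
  let f : GDHom (GlueDatum.unit K (K ⊗[k] B₀) (K ⊗[k] B₁) (K ⊗[k] B₀₁))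
      (twistE x y hC.mul_eq_one G (n : ℤ)) := GDHom.ofSection _ ⟨s, hs'⟩
  have hf₁ : ∀ r : K ⊗[k] B₁, (f.f₁ r : G.N₁) = r • s.2 := fun r => rfl
  have hne : f.f₁ ≠ 0 := by
    intro h0
    apply ne_zero_of_genModY hC G s.2 hgen
    have h1 := hf₁ 1
    rw [h0, one_smul] at h1
    exact h1.symm
  have hinj := H565.D.injective_of_ne_zero hC f (Or.inr hne)
  obtain ⟨h₀, h₁⟩ := H565.D.finite_coker_of_injective hC f hinj
  have heul := H565.D.euler_eq_of_injective hC f hinj h₀ h₁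
  have hdeg := degree_twistE hC G (n : ℤ)
  haveI := H565.chart_away₁ hC K
  have key : ∀ c : G.N₁, ∃ c' : G.N₁, ∃ r : K ⊗[k] B₁,
      r • s.2 = c - ((1 : K) ⊗ₜ[k] y : K ⊗[k] B₁) • c' := by
    intro c
    obtain ⟨r, hr⟩ := hgen c
    rw [Submodule.ideal_span_singleton_smul] at hr
    obtain ⟨c', -, hc'⟩ := hr
    refine ⟨c', r, ?_⟩
    have h2 : yElt k K y • c' = c - r • s.2 := hc'
    have h3 : ((1 : K) ⊗ₜ[k] y : K ⊗[k] B₁) • c' = c - r • s.2 := h2
    rw [h3]; abel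
  have hsurj : ∀ c : (twistE x y hC.mul_eq_one G (n : ℤ)).N₁,
      ∃ c' : (twistE x y hC.mul_eq_one G (n : ℤ)).N₁,
        c - ((1 : K) ⊗ₜ[k] y : K ⊗[k] B₁) • c' ∈ LinearMap.range f.f₁ := by
    intro c
    obtain ⟨c', r, hr⟩ := key c
    exact ⟨c', r, (hf₁ r).trans hr⟩
  have hQ := finrank_coker₁_eq_coker₀₁ ((1 : K) ⊗ₜ[k] y : K ⊗[k] B₁) f h₁ hsurj
  have e0 : (LinearMap.range f.f₀ : Submodule (K ⊗[k] B₀) G.N₀) =
      Submodule.span (K ⊗[k] B₀) {s.1} :=
    (LinearMap.span_singleton_eq_range (K ⊗[k] B₀) G.N₀ s.1).symm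
  have h₀' : Module.Finite K (G.N₀ ⧸ Submodule.span (K ⊗[k] B₀) {s.1}) := by
    rw [← e0]; exact h₀
  refine ⟨h₀', ?_⟩
  have hq₀ : Module.finrank K (G.N₀ ⧸ Submodule.span (K ⊗[k] B₀) {s.1}) =
      Module.finrank K ((twistE x y hC.mul_eq_one G (n : ℤ)).N₀ ⧸ LinearMap.range f.f₀) := by
    rw [← e0]; rfl
  have hdeg' : (twistE x y hC.mul_eq_one G (n : ℤ)).degree =
      (twistE x y hC.mul_eq_one G (n : ℤ)).euler -
        (GlueDatum.unit K (K ⊗[k] B₀) (K ⊗[k] B₁) (K ⊗[k] B₀₁)).euler := rfl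
  rw [hq₀]
  have hcd : chartDeg k y = Module.finrank k (B₁ ⧸ Ideal.span {y}) := rfl
  rw [← hcd]
  push_cast
  rw [hdeg'] at hdeg
  rw [heul, hQ] at hdeg
  linarith

end Chart

end Fermat.Agent.S25.H250
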