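/-
S25, block DEGREE (squad S25/S10), leaf D4 core (helper250), operator language over a field:
Euler characteristic of the twisted differential,
`h⁰(m) + h¹(0) = h⁰(0) + m · dim (N1 / Y1 N1) + h¹(m)`.
-/
import Fermat.Agent.S25.H10.CechDefs
import Fermat.Agent.S25.H10.K0
import Fermat.Agent.S25.H10.K0e
import Fermat.Agent.S25.H10.RRLite

set_option autoImplicit false
set_option linter.style.haveILetI false
set_option linter.unusedSectionVars false

universe u v

namespace Fermat.Agent.S25.H250

open Fermat.Agent.S25.H10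

section Pow

variable {K : Type u} [Field K] {N : Type v} [AddCommGroup N] [Module K N]

/-- `dim N / E^m N = m · dim N / E N` for an `IsFGProj` operator over a field. -/
theorem finrank_quotient_range_pow {E : Module.End K N} (h : IsFGProj E) (m : ℕ) :
    Module.finrank K (N ⧸ LinearMap.range (E ^ m)) =
      m * Module.finrank K (N ⧸ LinearMap.range E) := by
  induction m with
  | zero =>
    have : LinearMap.range (E ^ 0) = ⊤ := by
      rw [pow_zero]
      exact LinearMap.range_eq_top.2 (fun z => ⟨z, rfl⟩)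
    rw [this, Nat.zero_mul]
    haveI : Subsingleton (N ⧸ (⊤ : Submodule K N)) := Submodule.Quotient.subsingleton_iff.2 rfl
    exact Module.finrank_zero_of_subsingleton
  | succ m ih =>
    have hE : Function.Injective E := injective_of_isFGProj h
    have hEm : Function.Injective (E ^ m) := pow_injective_of_isFGProj h m
    have hcomp : (E ^ m) ∘ₗ E = E ^ (m + 1) := by
      rw [pow_succ]; rfl
    haveI : FiniteDimensional K (LinearMap.ker (E ^ m)) := by
      rw [LinearMap.ker_eq_bot.2 hEm]; infer_instance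
    haveI : FiniteDimensional K (N ⧸ LinearMap.range E) := by
      have := (quotient_pow_finite_projective h 1).1
      rwa [pow_one] at this
    haveI : FiniteDimensional K (N ⧸ LinearMap.range ((E ^ m) ∘ₗ E)) := by
      rw [hcomp]
      exact (quotient_pow_finite_projective h (m + 1)).1
    have key := finrank_ker_add_finrank_coker E (E ^ m) hE
    have hk1 : Module.finrank K (LinearMap.ker (E ^ m)) = 0 := by
      rw [LinearMap.ker_eq_bot.2 hEm]; exact finrank_bot K N
    have hk2 : Module.finrank K (LinearMap.ker ((E ^ m) ∘ₗ E)) = 0 := by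
      have hinj : Function.Injective ((E ^ m) ∘ₗ E) := fun a b hab => hE (hEm hab)
      rw [LinearMap.ker_eq_bot.2 hinj]; exact finrank_bot K N
    rw [hk1, hk2, hcomp, ih] at key
    rw [Nat.succ_mul]
    omega

end Pow

section Twist

variable {K : Type u} [Field K] {N0 N1 N01 : Type v}
  [AddCommGroup N0] [AddCommGroup N1] [AddCommGroup N01]
  [Module K N0] [Module K N1] [Module K N01]

/-- The modification `(a, b) ↦ (a, Y1^m b)`. -/
noncomputable def twistIncl (D : CechOps K N0 N1 N01) (m : ℕ) : (N0 × N1) →ₗ[K] (N0 × N1) :=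
  LinearMap.prodMap LinearMap.id (D.Y1 ^ m)

theorem d_comp_twistIncl (D : CechOps K N0 N1 N01) (m : ℕ) :
    D.d m ∘ₗ twistIncl D m = D.d 0 := by
  apply LinearMap.ext
  rintro ⟨a, b⟩
  simp only [LinearMap.coe_comp, Function.comp_apply, twistIncl, LinearMap.prodMap_apply,
    LinearMap.id_coe, id_eq, CechOps.d_apply, pow_zero, Module.End.one_apply]
  rw [D.r1_Y1_pow, D.T_pow_Tinv_pow_apply]

theorem twistIncl_injective (D : CechOps K N0 N1 N01) (h1 : IsFGProj D.Y1) (m : ℕ) :
    Function.Injective (twistIncl D m) := by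
  rintro ⟨a, b⟩ ⟨a', b'⟩ hab
  simp only [twistIncl, LinearMap.prodMap_apply, LinearMap.id_coe, id_eq, Prod.mk.injEq] at hab
  obtain ⟨h1', h2'⟩ := hab
  rw [h1', pow_injective_of_isFGProj h1 m h2']

/-- The cokernel of `twistIncl` is `N1 / Y1^m N1`. -/
noncomputable def cokerTwistInclEquiv (D : CechOps K N0 N1 N01) (m : ℕ) :
    ((N0 × N1) ⧸ LinearMap.range (twistIncl D m)) ≃ₗ[K] (N1 ⧸ LinearMap.range (D.Y1 ^ m)) := by
  let f : (N0 × N1) →ₗ[K] (N1 ⧸ LinearMap.range (D.Y1 ^ m)) :=
    (LinearMap.range (D.Y1 ^ m)).mkQ ∘ₗ LinearMap.snd K N0 N1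
  have hf : Function.Surjective f := by
    intro z
    obtain ⟨b, rfl⟩ := Submodule.Quotient.mk_surjective _ z
    exact ⟨(0, b), rfl⟩
  have hker : LinearMap.range (twistIncl D m) = LinearMap.ker f := by
    ext ⟨a, b⟩
    simp only [LinearMap.mem_range, LinearMap.mem_ker, f, LinearMap.coe_comp,
      Function.comp_apply, LinearMap.snd_apply, Submodule.mkQ_apply,
      Submodule.Quotient.mk_eq_zero, twistIncl, LinearMap.prodMap_apply, LinearMap.id_coe, id_eq,
      Prod.mk.injEq, Prod.exists]
    constructor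
    · rintro ⟨a', b', -, hb⟩
      exact ⟨b', hb⟩
    · rintro ⟨b', hb⟩
      exact ⟨a, b', rfl, hb⟩
  exact (Submodule.quotEquivOfEq _ _ hker).trans (f.quotKerEquivOfSurjective hf)

/-- **D4 core.**  `h⁰(m) + h¹(0) = h⁰(0) + m · dim (N1 / Y1 N1) + h¹(m)`. -/
theorem finrank_twist (D : CechOps K N0 N1 N01) (h1 : IsFGProj D.Y1) (m : ℕ)
    [FiniteDimensional K (LinearMap.ker (D.d m))]
    [FiniteDimensional K (N01 ⧸ LinearMap.range (D.d 0))] :
    Module.finrank K (LinearMap.ker (D.d m)) + Module.finrank K (N01 ⧸ LinearMap.range (D.d 0)) =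
      Module.finrank K (LinearMap.ker (D.d 0)) + m * Module.finrank K (N1 ⧸ LinearMap.range D.Y1)
        + Module.finrank K (N01 ⧸ LinearMap.range (D.d m)) := by
  haveI : FiniteDimensional K (N1 ⧸ LinearMap.range (D.Y1 ^ m)) :=
    (quotient_pow_finite_projective h1 m).1
  haveI : FiniteDimensional K ((N0 × N1) ⧸ LinearMap.range (twistIncl D m)) :=
    Module.Finite.equiv (cokerTwistInclEquiv D m).symm
  haveI : FiniteDimensional K (N01 ⧸ LinearMap.range (D.d m ∘ₗ twistIncl D m)) := by
    rw [d_comp_twistIncl]; infer_instance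
  have key := finrank_ker_add_finrank_coker (twistIncl D m) (D.d m) (twistIncl_injective D h1 m)
  rw [d_comp_twistIncl, (cokerTwistInclEquiv D m).finrank_eq, finrank_quotient_range_pow h1 m]
    at key
  exact key

end Twist

end Fermat.Agent.S25.H250
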