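/-
S25, block DEGREE (squad S25/S10), leaf D4 (helper250): twists.
Exact statements of `H10/DegreeSkel.lean`:

* `euler_twistE`  : `χ(G(n)) = χ(G) + n d`;
* `degree_twistE` : `deg G(n) = deg G + n d`;
* `chartDeg_pos`  : `0 < d`.
-/
import Fermat.Agent.S25.H10.DegreeDefs
import Fermat.Agent.S25.H250.AdapterTwist
import Fermat.Agent.S25.H250.DegreeD1
import Fermat.Agent.S25.H250.TwistEulerCore

set_option autoImplicit false
set_option linter.style.haveILetI false
set_option linter.unusedSectionVars false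

universe u

open scoped TensorProduct
open Polynomial

namespace Fermat.Agent.S25.H250

open Fermat.Agent.S25 Fermat.Agent.S25.H10

section Artin

variable {K : Type u} [Field K] {R : Type u} [CommRing R] [Algebra K R]

/-- The range of multiplication by `t` is `(t) • ⊤`. -/
theorem range_lsmul_eq (t : R) (N : Type u) [AddCommGroup N] [Module R N] [Module K N]
    [IsScalarTower K R N] :
    LinearMap.range (Algebra.lsmul K K N t) =
      ((Ideal.span {t} : Ideal R) • (⊤ : Submodule R N)).restrictScalars K := by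
  ext n
  rw [Submodule.restrictScalars_mem, Submodule.ideal_span_singleton_smul,
    Submodule.mem_smul_pointwise_iff_exists]
  simp only [LinearMap.mem_range, Algebra.lsmul_coe, Submodule.mem_top, true_and]

/-- `N / t N ≃ (R / t) ⊗ N`, `K`-linearly. -/
noncomputable def quotientLsmulEquiv (t : R) (N : Type u) [AddCommGroup N] [Module R N]
    [Module K N] [IsScalarTower K R N] :
    (N ⧸ LinearMap.range (Algebra.lsmul K K N t)) ≃ₗ[K] ((R ⧸ Ideal.span {t}) ⊗[R] N) :=
  (Submodule.quotEquivOfEq _ _ (range_lsmul_eq (K := K) t N)).trans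
    ((Submodule.Quotient.restrictScalarsEquiv K
      ((Ideal.span {t} : Ideal R) • (⊤ : Submodule R N))).trans
      ((TensorProduct.quotTensorEquivQuotSMul N (Ideal.span {t} : Ideal R)).restrictScalars
        K).symm)

/-- `R / t R ≃ R / (t)`, `K`-linearly (operator quotient versus ring quotient). -/
noncomputable def quotientLsmulEquivSelf (t : R) :
    (R ⧸ LinearMap.range (Algebra.lsmul K K R t)) ≃ₗ[K] (R ⧸ Ideal.span {t}) :=
  (quotientLsmulEquiv (K := K) t R).trans
    ((TensorProduct.rid R (R ⧸ Ideal.span {t})).restrictScalars K)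

/-- For an invertible module `N` over a `K`-algebra `R` and `t ∈ R` with `R / t` finite over
the field `K`: `dim N / t N = dim R / t`. -/
theorem finrank_quotient_lsmul (t : R) [Module.Finite K (R ⧸ Ideal.span {t})]
    (N : Type u) [AddCommGroup N] [Module R N] [Module K N] [IsScalarTower K R N]
    [Module.Invertible R N] :
    Module.finrank K (N ⧸ LinearMap.range (Algebra.lsmul K K N t)) =
      Module.finrank K (R ⧸ Ideal.span {t}) := by
  haveI : IsArtinianRing (R ⧸ Ideal.span {t}) := IsArtinianRing.of_finite K _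
  haveI : Module.Free (R ⧸ Ideal.span {t}) ((R ⧸ Ideal.span {t}) ⊗[R] N) := inferInstance
  obtain ⟨e1⟩ := (Module.Invertible.free_iff_linearEquiv
    (R := R ⧸ Ideal.span {t}) (M := (R ⧸ Ideal.span {t}) ⊗[R] N)).1 inferInstance
  rw [(quotientLsmulEquiv (K := K) t N).finrank_eq, (e1.restrictScalars K).finrank_eq]

end Artin

section Chart

variable {k : Type u} [Field k] {B₀ B₁ B₀₁ : Type u} [CommRing B₀] [CommRing B₁] [CommRing B₀₁]
  [Algebra k B₀] [Algebra k B₁] [Algebra k B₀₁] [Algebra B₀ B₀₁] [Algebra B₁ B₀₁]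
  [IsScalarTower k B₀ B₀₁] [IsScalarTower k B₁ B₀₁]
  {x : B₀} {y : B₁} {e : B₁ →ₐ[k] k}

/-- `B₁ / (y)` is finite-dimensional over `k`. -/
theorem finite_quotient_y (hC : IsCurveChart k B₀ B₁ B₀₁ x y e) :
    Module.Finite k (B₁ ⧸ Ideal.span {y}) := by
  haveI := hC.isDomain₁
  obtain ⟨n, φ, hφ⟩ := exists_equivariant_equiv (aeval_y_injective hC) hC.finite₁
  have hproj : IsFGProj (Algebra.lsmul k k B₁ y) := by
    refine ⟨n, φ.toLinearMap, φ.symm.toLinearMap, ?_, ?_, ?_⟩
    · apply LinearMap.ext; intro v; simp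
    · intro v
      exact hφ v
    · intro w
      simp only [LinearEquiv.coe_coe, Algebra.lsmul_coe, smul_eq_mul]
      rw [LinearEquiv.symm_apply_eq, hφ, LinearEquiv.apply_symm_apply]
  have h1 := (quotient_pow_finite_projective hproj 1).1
  rw [pow_one] at h1
  exact Module.Finite.equiv (quotientLsmulEquivSelf (K := k) y)

/-- D4-c. `d > 0`. -/
theorem chartDeg_pos (hC : IsCurveChart k B₀ B₁ B₀₁ x y e) : 0 < chartDeg k y := by
  haveI := finite_quotient_y hC
  haveI : Nontrivial (B₁ ⧸ Ideal.span {y}) := by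
    apply Ideal.Quotient.nontrivial_iff.2
    rw [Ne, Ideal.span_singleton_eq_top]
    intro hu
    have hu' : IsUnit (e y) := hu.map e
    rw [hC.e_y] at hu'
    exact not_isUnit_zero hu'
  exact Module.finrank_pos

/-- `dim_K (K ⊗ B₁) / (1 ⊗ y) = d`. -/
theorem finrank_tensor_quotient_y (hC : IsCurveChart k B₀ B₁ B₀₁ x y e) (K : Type u) [Field K]
    [Algebra k K] :
    Module.Finite K ((K ⊗[k] B₁) ⧸ Ideal.span {(1 : K) ⊗ₜ[k] y}) ∧
      Module.finrank K ((K ⊗[k] B₁) ⧸ Ideal.span {(1 : K) ⊗ₜ[k] y}) = chartDeg k y := by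
  haveI := finite_quotient_y hC
  have hI : (Ideal.span {y} : Ideal B₁).map
      (Algebra.TensorProduct.includeRight (R := k) (A := K) (B := B₁)) =
      Ideal.span {(1 : K) ⊗ₜ[k] y} := by
    rw [Ideal.map_span, Set.image_singleton]
    rfl
  have e1 := (Algebra.TensorProduct.tensorQuotientEquiv (R := k) K B₁ K
    (Ideal.span {y} : Ideal B₁)).toLinearEquiv
  rw [hI] at e1
  refine ⟨Module.Finite.equiv e1, ?_⟩
  rw [← e1.finrank_eq, Module.finrank_baseChange]
  rfl

/-- `dim_K N₁ / (1 ⊗ y) N₁ = d` for every gluing datum over a field. -/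
theorem finrank_quotient_Y1 (hC : IsCurveChart k B₀ B₁ B₀₁ x y e) {K : Type u} [Field K]
    [Algebra k K] (G : CurveGD k B₀ B₁ B₀₁ K) :
    Module.finrank K (G.N₁ ⧸ LinearMap.range (chartCechOps hC G).Y1) = chartDeg k y := by
  obtain ⟨hfin, hrank⟩ := finrank_tensor_quotient_y hC K
  haveI := hfin
  haveI := G.invertible₁
  rw [← hrank]
  exact finrank_quotient_lsmul (K := K) ((1 : K) ⊗ₜ[k] y) G.N₁

/-- Euler characteristic of a linear map (kernel minus cokernel). -/
noncomputable def eulerMap {K : Type u} [Field K] {M N : Type u} [AddCommGroup M]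
    [AddCommGroup N] [Module K M] [Module K N] (f : M →ₗ[K] N) : ℤ :=
  (Module.finrank K (LinearMap.ker f) : ℤ) - (Module.finrank K (N ⧸ LinearMap.range f) : ℤ)

theorem euler_eq_eulerMap {K : Type u} [Field K] [Algebra k K] (G : CurveGD k B₀ B₁ B₀₁ K) :
    G.euler = eulerMap G.cech := rfl

/-- D4 core for the adapter: `χ(d m) = χ(d 0) + m d`. -/
theorem eulerMap_d (hC : IsCurveChart k B₀ B₁ B₀₁ x y e) {K : Type u} [Field K]
    [Algebra k K] (G : CurveGD k B₀ B₁ B₀₁ K) (m : ℕ) :
    eulerMap ((chartCechOps hC G).d m) = eulerMap ((chartCechOps hC G).d 0) + m * chartDeg k y := by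
  haveI : FiniteDimensional K (LinearMap.ker ((chartCechOps hC G).d m)) := by
    have h := finite_H0 hC (twistE x y hC.mul_eq_one G (m : ℤ))
    have h2 := chartCechOps_twistE_cech hC G m
    have h3 : ((twistE x y hC.mul_eq_one G (m : ℤ)).H0 : Submodule K (G.N₀ × G.N₁)) =
        LinearMap.ker ((chartCechOps hC G).d m) := congrArg LinearMap.ker h2
    rw [← h3]
    exact h
  haveI : FiniteDimensional K (G.N₀₁ ⧸ LinearMap.range ((chartCechOps hC G).d 0)) := by
    rw [chartCechOps_d_zero]
    exact finite_H1 hC G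
  have key := finrank_twist (chartCechOps hC G) (isFGProj_Y1 hC G) m
  rw [finrank_quotient_Y1 hC G] at key
  unfold eulerMap
  have key' : ((Module.finrank K (LinearMap.ker ((chartCechOps hC G).d m)) : ℤ)) +
      (Module.finrank K (G.N₀₁ ⧸ LinearMap.range ((chartCechOps hC G).d 0)) : ℤ) =
      (Module.finrank K (LinearMap.ker ((chartCechOps hC G).d 0)) : ℤ) + m * chartDeg k y +
        (Module.finrank K (G.N₀₁ ⧸ LinearMap.range ((chartCechOps hC G).d m)) : ℤ) := by
    exact_mod_cast key
  linarith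

/-- D4-a. `χ(G(n)) = χ(G) + n d`. -/
theorem euler_twistE (hC : IsCurveChart k B₀ B₁ B₀₁ x y e) {K : Type u} [Field K]
    [Algebra k K] (G : CurveGD k B₀ B₁ B₀₁ K) (n : ℤ) :
    (twistE x y hC.mul_eq_one G n).euler = G.euler + n * chartDeg k y := by
  have hG : G.euler = eulerMap ((chartCechOps hC G).d 0) := by
    rw [chartCechOps_d_zero]; rfl
  obtain ⟨m, rfl | rfl⟩ := Int.eq_nat_or_neg n
  · -- `n = m ≥ 0`
    have h1 : (twistE x y hC.mul_eq_one G (m : ℤ)).euler =
        eulerMap ((chartCechOps hC G).d m) := by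
      have h2 := chartCechOps_twistE_cech hC G m
      exact congrArg eulerMap h2
    rw [h1, hG, eulerMap_d hC G m]
  · -- `n = -m ≤ 0`
    have h0 := eulerMap_d hC (twistE x y hC.mul_eq_one G (-(m : ℤ))) m
    have h1 : eulerMap ((chartCechOps hC (twistE x y hC.mul_eq_one G (-(m : ℤ)))).d m :
        (G.N₀ × G.N₁) →ₗ[K] G.N₀₁) = eulerMap ((chartCechOps hC G).d 0) :=
      congrArg eulerMap (chartCechOps_twistE_d hC G (-(m : ℤ)) m 0 (by simp))
    have h2 : (twistE x y hC.mul_eq_one G (-(m : ℤ))).euler =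
        eulerMap ((chartCechOps hC (twistE x y hC.mul_eq_one G (-(m : ℤ)))).d 0) := by
      rw [chartCechOps_d_zero]; rfl
    have h0' : eulerMap ((chartCechOps hC G).d 0) =
        (twistE x y hC.mul_eq_one G (-(m : ℤ))).euler + m * chartDeg k y := by
      rw [h2, ← h1]
      exact h0
    rw [hG, h0']
    ring

/-- D4-b. `deg G(n) = deg G + n d`. -/
theorem degree_twistE (hC : IsCurveChart k B₀ B₁ B₀₁ x y e) {K : Type u} [Field K]
    [Algebra k K] (G : CurveGD k B₀ B₁ B₀₁ K) (n : ℤ) :
    (twistE x y hC.mul_eq_one G n).degree = G.degree + n * chartDeg k y := by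
  show (twistE x y hC.mul_eq_one G n).euler - _ = G.euler - _ + n * chartDeg k y
  rw [euler_twistE hC G n]
  ring

end Chart

end Fermat.Agent.S25.H250
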